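/-
GATE-M (S41) / D1-LATTICE, file 1 (helper23).  Mathlib only.

Abstract lattice lemma: a perfect pairing `A × B → ℤ` of lattices together with a map
`j : A → B` which is skew for the pairing and has saturated image induces a UNIMODULAR
bilinear form on `P = range j`.  (For `A = H¹_c`, `B = H¹`, `j` the forgetful map, `P = H¹_par`,
this is Poincaré duality of the closed surface, with no topology.)
-/
import Mathlib

set_option autoImplicit false

namespace Fermat.Agent.GM.PD

open Module

section Abstract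

variable {A B : Type*} [AddCommGroup A] [AddCommGroup B]

/-- A saturated submodule of a finite free `ℤ`-module admits a linear retraction. -/
theorem exists_retraction_of_saturated [Module.Finite ℤ B] (P : Submodule ℤ B)
    (hsat : ∀ (n : ℤ) (b : B), n ≠ 0 → n • b ∈ P → b ∈ P) :
    ∃ e : B →ₗ[ℤ] P, ∀ p : P, e p = p := by
  have : Module.IsTorsionFree ℤ (B ⧸ P) := by
    refine Module.IsTorsionFree.of_smul_eq_zero ?_
    intro r m hm
    induction m using Submodule.Quotient.induction_on with
    | _ b =>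
      by_cases hr : r = 0
      · exact Or.inl hr
      · right
        rw [← Submodule.Quotient.mk_smul, Submodule.Quotient.mk_eq_zero] at hm
        exact (Submodule.Quotient.mk_eq_zero P).2 (hsat r b hr hm)
  have : Module.Free ℤ (B ⧸ P) := Module.free_of_finite_type_torsion_free'
  obtain ⟨σ, hσ⟩ := Module.projective_lifting_property P.mkQ (LinearMap.id : (B ⧸ P) →ₗ[ℤ] (B ⧸ P))
    (Submodule.mkQ_surjective P)
  have hσ' : ∀ x, P.mkQ (σ x) = x := fun x => by
    simpa using LinearMap.congr_fun hσ x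
  have hmem : ∀ b : B, ((LinearMap.id : B →ₗ[ℤ] B) - σ ∘ₗ P.mkQ) b ∈ P := by
    intro b
    rw [← Submodule.Quotient.mk_eq_zero P]
    simp only [LinearMap.sub_apply, LinearMap.id_coe, id_eq, LinearMap.coe_comp,
      Function.comp_apply, Submodule.Quotient.mk_sub]
    have := hσ' (P.mkQ b)
    simp only [Submodule.mkQ_apply] at this ⊢
    rw [this, sub_self]
  refine ⟨((LinearMap.id : B →ₗ[ℤ] B) - σ ∘ₗ P.mkQ).codRestrict P hmem, ?_⟩
  intro p
  apply Subtype.ext
  simp only [LinearMap.codRestrict_apply, LinearMap.sub_apply, LinearMap.id_coe, id_eq,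
    LinearMap.coe_comp, Function.comp_apply]
  have : P.mkQ (p : B) = 0 := by
    simp
  rw [this, map_zero, sub_zero]

variable (pair : A →ₗ[ℤ] B →ₗ[ℤ] ℤ) (j : A →ₗ[ℤ] B)

/-- The form induced on `range j` by a pairing for which `j` is skew. -/
noncomputable def inducedForm (hskew : ∀ a a', pair a (j a') = - pair a' (j a)) :
    LinearMap.range j →ₗ[ℤ] LinearMap.range j →ₗ[ℤ] ℤ :=
  ((LinearMap.ker j).liftQ ((LinearMap.lcomp ℤ ℤ (LinearMap.range j).subtype) ∘ₗ pair)
    (by
      intro a ha
      rw [LinearMap.mem_ker] at ha ⊢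
      ext ⟨p, a', rfl⟩
      simp only [LinearMap.coe_comp, Function.comp_apply, LinearMap.lcomp_apply,
        Submodule.subtype_apply, LinearMap.zero_apply]
      rw [hskew, ha, map_zero, neg_zero])) ∘ₗ
    (j.quotKerEquivRange).symm.toLinearMap

theorem inducedForm_apply (hskew : ∀ a a', pair a (j a') = - pair a' (j a)) (a : A)
    (p : LinearMap.range j) :
    inducedForm pair j hskew ⟨j a, ⟨a, rfl⟩⟩ p = pair a (p : B) := by
  unfold inducedForm
  have : (j.quotKerEquivRange).symm ⟨j a, ⟨a, rfl⟩⟩ = (LinearMap.ker j).mkQ a := by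
    rw [LinearEquiv.symm_apply_eq]
    rfl
  simp only [LinearMap.coe_comp, LinearEquiv.coe_coe, Function.comp_apply, this]
  rfl

/-- LATTICE LEMMA. -/
theorem inducedForm_bijective [Module.Finite ℤ B] [Module.Free ℤ B]
    (hA : ∀ φ : B →ₗ[ℤ] ℤ, ∃ a, pair a = φ)
    (hskew : ∀ a a', pair a (j a') = - pair a' (j a))
    (hsat : ∀ (n : ℤ) (b : B), n ≠ 0 → n • b ∈ LinearMap.range j → b ∈ LinearMap.range j) :
    Function.Bijective (inducedForm pair j hskew) := by
  constructor
  · rw [injective_iff_map_eq_zero]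
    rintro ⟨p, a, rfl⟩ h
    apply Subtype.ext
    show j a = 0
    rw [← Module.forall_dual_apply_eq_zero_iff ℤ (j a)]
    intro φ
    obtain ⟨a', rfl⟩ := hA φ
    have h1 := LinearMap.congr_fun h ⟨j a', ⟨a', rfl⟩⟩
    rw [inducedForm_apply] at h1
    simp only [LinearMap.zero_apply] at h1
    rw [hskew, h1, neg_zero]
  · intro lam
    obtain ⟨e, he⟩ := exists_retraction_of_saturated (LinearMap.range j) hsat
    obtain ⟨a, ha⟩ := hA (lam ∘ₗ e)
    refine ⟨⟨j a, ⟨a, rfl⟩⟩, ?_⟩
    ext p
    rw [inducedForm_apply, ha]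
    simp [he p]

end Abstract

end Fermat.Agent.GM.PD
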