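/-
GATE-M (S41) / D1-LATTICE, file 2 (helper23).  Mathlib only.

The Manin model of `H¹_c`, `H¹` and `H¹_par` of a finite-index subgroup of `PSL₂(ℤ) = ℤ/2 * ℤ/3`,
over `ℤ`:  `X` a finite set with two permutations `S`, `U`, `S² = 1`, `U³ = 1` (fixed points allowed),
`M = X → ℤ`,
  `A = {a | a + a∘S = 0, a + a∘U + a∘U² = 0}`  (`H¹_c`),
  `C = M^S + M^U`, `B = M ⧸ C`                 (`H¹`),
  `j : A → B` (forget supports), `P = range j` (`H¹_par`).
Results: `B` torsion free, `A × B → ℤ` perfect, `j` skew, `P` saturated, and the resulting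
form on `P` is UNIMODULAR (`cupForm_bijective`).
-/
import Mathlib
import Fermat.Agent.GM.PD.LatticeLemma

set_option autoImplicit false
set_option linter.unusedSectionVars false
set_option linter.deprecated false

namespace Fermat.Agent.GM.PD

open Module

/-- A finite `ℤ/2 * ℤ/3`-set, presented by the two generating permutations. -/
structure SUData (X : Type*) where
  S : Equiv.Perm X
  U : Equiv.Perm X
  hS : ∀ x, S (S x) = x
  hU : ∀ x, U (U (U x)) = x

variable {X : Type*} [Fintype X]

/-- The standard form on `X → ℤ`. -/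
def stdForm : (X → ℤ) →ₗ[ℤ] (X → ℤ) →ₗ[ℤ] ℤ :=
  LinearMap.mk₂ ℤ (fun m m' => ∑ x, m x * m' x)
    (by intro a b c; simp [add_mul, Finset.sum_add_distrib])
    (by intro r a b; simp [Finset.mul_sum, mul_assoc])
    (by intro a b c; simp [mul_add, Finset.sum_add_distrib])
    (by intro r a b; simp [Finset.mul_sum, mul_left_comm])

theorem stdForm_apply (m m' : X → ℤ) : stdForm m m' = ∑ x, m x * m' x := rfl

theorem stdForm_comm (m m' : X → ℤ) : stdForm m m' = stdForm m' m := by
  simp only [stdForm_apply, mul_comm]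

/-- Reindexing the standard form by a permutation. -/
theorem stdForm_comp_perm (g : Equiv.Perm X) (m m' : X → ℤ) :
    stdForm (m ∘ g) (m' ∘ g) = stdForm m m' := by
  simp only [stdForm_apply, Function.comp_apply]
  exact Equiv.sum_comp g (fun x => m x * m' x)

/-- Functions invariant under a permutation. -/
def invSub (g : Equiv.Perm X) : Submodule ℤ (X → ℤ) where
  carrier := {m | ∀ x, m (g x) = m x}
  add_mem' := by
    intro a b ha hb x
    simp only [Set.mem_setOf_eq] at ha hb
    simp [ha x, hb x]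
  zero_mem' := by intro x; rfl
  smul_mem' := by
    intro r a ha x
    simp only [Set.mem_setOf_eq] at ha
    simp [ha x]

theorem mem_invSub {g : Equiv.Perm X} {m : X → ℤ} : m ∈ invSub g ↔ ∀ x, m (g x) = m x := Iff.rfl

variable (D : SUData X)

/-- `C = M^S + M^U`. -/
def cSub : Submodule ℤ (X → ℤ) := invSub D.S ⊔ invSub D.U

/-- `A = H¹_c`: the Manin relations. -/
def aSub : Submodule ℤ (X → ℤ) where
  carrier := {a | (∀ x, a x + a (D.S x) = 0) ∧ ∀ x, a x + a (D.U x) + a (D.U (D.U x)) = 0}
  add_mem' := by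
    rintro a b ⟨ha1, ha2⟩ ⟨hb1, hb2⟩
    refine ⟨fun x => ?_, fun x => ?_⟩
    · have := ha1 x; have := hb1 x; simp only [Pi.add_apply]; omega
    · have := ha2 x; have := hb2 x; simp only [Pi.add_apply]; omega
  zero_mem' := ⟨fun x => by simp, fun x => by simp⟩
  smul_mem' := by
    rintro r a ⟨ha1, ha2⟩
    refine ⟨fun x => ?_, fun x => ?_⟩
    · have := ha1 x
      simp only [Pi.smul_apply, smul_eq_mul]
      rw [← mul_add, this, mul_zero]
    · have := ha2 x
      simp only [Pi.smul_apply, smul_eq_mul]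
      rw [← mul_add, ← mul_add, this, mul_zero]

theorem mem_aSub {a : X → ℤ} : a ∈ aSub D ↔
    (∀ x, a x + a (D.S x) = 0) ∧ ∀ x, a x + a (D.U x) + a (D.U (D.U x)) = 0 := Iff.rfl

/-- `B = H¹`. -/
abbrev BQ : Type _ := (X → ℤ) ⧸ cSub D

/-! ### (L1) `B` is torsion free -/

theorem cSub_saturated (n : ℤ) (m : X → ℤ) (hn : n ≠ 0) (h : n • m ∈ cSub D) : m ∈ cSub D := by
  obtain ⟨s, hs, u, hu, hsu⟩ := Submodule.mem_sup.1 h
  rw [mem_invSub] at hs hu
  have hx : ∀ x, s x + u x = n * m x := fun x => by
    have := congrFun hsu x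
    simpa using this
  -- `s mod n` is `U`-invariant
  have hmod : ∀ x, s (D.U x) % n = s x % n := by
    intro x
    rw [Int.emod_eq_emod_iff_emod_sub_eq_zero]
    have h1 := hx x
    have h2 := hx (D.U x)
    rw [hu x] at h2
    have : s (D.U x) - s x = n * (m (D.U x) - m x) := by
      rw [mul_sub, ← h1, ← h2]; ring
    rw [this]
    exact Int.mul_emod_right n _
  refine Submodule.mem_sup.2 ⟨fun x => s x / n, ?_, fun x => m x - s x / n, ?_, ?_⟩
  · rw [mem_invSub]
    intro x
    simp only [hs x]
  · rw [mem_invSub]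
    intro x
    have key : ∀ y, n * (m y - s y / n) = u y + s y % n := by
      intro y
      have h1 := hx y
      have h2 := Int.emod_add_mul_ediv (s y) n
      rw [mul_sub, ← h1]
      linarith
    have := key (D.U x)
    rw [hu x, hmod x, ← key x] at this
    exact mul_left_cancel₀ hn this
  · funext x
    simp

instance instTorsionFreeBQ : Module.IsTorsionFree ℤ (BQ D) := by
  refine Module.IsTorsionFree.of_smul_eq_zero ?_
  intro r m hm
  induction m using Submodule.Quotient.induction_on with
  | _ b =>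
    by_cases hr : r = 0
    · exact Or.inl hr
    · right
      rw [← Submodule.Quotient.mk_smul, Submodule.Quotient.mk_eq_zero] at hm
      exact (Submodule.Quotient.mk_eq_zero _).2 (cSub_saturated D r b hr hm)

instance instFreeBQ : Module.Free ℤ (BQ D) := Module.free_of_finite_type_torsion_free'

/-! ### (L2) `A = C^⊥` and the perfect pairing `A × B → ℤ` -/

theorem stdForm_aSub_invS {a s : X → ℤ} (ha : a ∈ aSub D) (hs : s ∈ invSub D.S) :
    stdForm a s = 0 := by
  have h1 : stdForm (a ∘ D.S) (s ∘ D.S) = stdForm a s := stdForm_comp_perm D.S a s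
  have h2 : stdForm (a ∘ D.S) (s ∘ D.S) = - stdForm a s := by
    simp only [stdForm_apply, Function.comp_apply, ← Finset.sum_neg_distrib]
    refine Finset.sum_congr rfl fun x _ => ?_
    rw [hs x]
    have := ha.1 x
    have h3 : a (D.S x) = - a x := by omega
    rw [h3]; ring
  omega

theorem stdForm_aSub_invU {a u : X → ℤ} (ha : a ∈ aSub D) (hu : u ∈ invSub D.U) :
    stdForm a u = 0 := by
  have h1 : stdForm (a ∘ D.U) (u ∘ D.U) = stdForm a u := stdForm_comp_perm D.U a u
  have h2 : stdForm ((a ∘ D.U) ∘ D.U) ((u ∘ D.U) ∘ D.U) = stdForm a u := by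
    rw [stdForm_comp_perm D.U, h1]
  have h3 : stdForm a u + stdForm (a ∘ D.U) (u ∘ D.U) +
      stdForm ((a ∘ D.U) ∘ D.U) ((u ∘ D.U) ∘ D.U) = 0 := by
    simp only [stdForm_apply, Function.comp_apply, ← Finset.sum_add_distrib]
    refine Finset.sum_eq_zero fun x _ => ?_
    rw [hu (D.U x), hu x, ← add_mul, ← add_mul, ha.2 x, zero_mul]
  omega

theorem stdForm_aSub_cSub {a c : X → ℤ} (ha : a ∈ aSub D) (hc : c ∈ cSub D) :
    stdForm a c = 0 := by
  obtain ⟨s, hs, u, hu, rfl⟩ := Submodule.mem_sup.1 hc
  rw [map_add, stdForm_aSub_invS D ha hs, stdForm_aSub_invU D ha hu, add_zero]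

variable [DecidableEq X]

theorem mem_aSub_of_forall {a : X → ℤ} (h : ∀ c ∈ cSub D, stdForm a c = 0) : a ∈ aSub D := by
  constructor
  · intro x
    -- test against the indicator of the `S`-orbit of `x`
    have hmem : (fun y => if y = x ∨ y = D.S x then (1 : ℤ) else 0) ∈ cSub D := by
      refine Submodule.mem_sup_left ?_
      intro y
      have : (D.S y = x ∨ D.S y = D.S x) ↔ (y = x ∨ y = D.S x) := by
        constructor
        · rintro (h | h)
          · right; rw [← h, D.hS]
          · left; exact D.S.injective h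
        · rintro (h | h)
          · right; rw [h]
          · left; rw [h, D.hS]
      simp only [this]
    have := h _ hmem
    rw [stdForm_apply] at this
    by_cases hx : D.S x = x
    · have h2 : ∑ y, a y * (if y = x ∨ y = D.S x then (1 : ℤ) else 0) = a x := by
        rw [Finset.sum_eq_single x]
        · simp
        · intro y _ hy
          simp [hx, hy]
        · intro hx'; exact absurd (Finset.mem_univ x) hx'
      rw [h2] at this
      rw [hx, this]; rfl
    · have h2 : ∑ y, a y * (if y = x ∨ y = D.S x then (1 : ℤ) else 0) = a x + a (D.S x) := by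
        rw [← Finset.sum_subset (Finset.subset_univ {x, D.S x})]
        · rw [Finset.sum_pair (Ne.symm hx)]
          simp
        · intro y _ hy
          simp only [Finset.mem_insert, Finset.mem_singleton] at hy
          simp [hy]
      rw [h2] at this
      exact this
  · intro x
    have hmem : (fun y => if y = x ∨ y = D.U x ∨ y = D.U (D.U x) then (1 : ℤ) else 0) ∈ cSub D := by
      refine Submodule.mem_sup_right ?_
      intro y
      have : (D.U y = x ∨ D.U y = D.U x ∨ D.U y = D.U (D.U x)) ↔
          (y = x ∨ y = D.U x ∨ y = D.U (D.U x)) := by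
        constructor
        · rintro (h | h | h)
          · right; right; rw [← h, D.hU]
          · left; exact D.U.injective h
          · right; left; exact D.U.injective h
        · rintro (h | h | h)
          · right; left; rw [h]
          · right; right; rw [h]
          · left; rw [h, D.hU]
      simp only [this]
    have := h _ hmem
    rw [stdForm_apply] at this
    by_cases hx : D.U x = x
    · have h2 : ∑ y, a y * (if y = x ∨ y = D.U x ∨ y = D.U (D.U x) then (1 : ℤ) else 0)
          = a x := by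
        rw [Finset.sum_eq_single x]
        · simp
        · intro y _ hy
          simp [hx, hy]
        · intro hx'; exact absurd (Finset.mem_univ x) hx'
      rw [h2] at this
      rw [hx, hx, this]; rfl
    · have hx2 : D.U (D.U x) ≠ x := by
        intro h2
        apply hx
        have := congrArg D.U h2
        rw [D.hU] at this
        exact this.symm
      have hx3 : D.U (D.U x) ≠ D.U x := fun h2 => hx (D.U.injective h2)
      have h2 : ∑ y, a y * (if y = x ∨ y = D.U x ∨ y = D.U (D.U x) then (1 : ℤ) else 0)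
          = a x + a (D.U x) + a (D.U (D.U x)) := by
        rw [← Finset.sum_subset (Finset.subset_univ {x, D.U x, D.U (D.U x)})]
        · rw [Finset.sum_insert, Finset.sum_pair (Ne.symm hx3)]
          · simp [add_assoc]
          · simp only [Finset.mem_insert, Finset.mem_singleton, not_or]
            exact ⟨Ne.symm hx, Ne.symm hx2⟩
        · intro y _ hy
          simp only [Finset.mem_insert, Finset.mem_singleton] at hy
          simp [hy]
      rw [h2] at this
      exact this

theorem mem_aSub_iff_forall {a : X → ℤ} : a ∈ aSub D ↔ ∀ c ∈ cSub D, stdForm a c = 0 :=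
  ⟨fun ha _ hc => stdForm_aSub_cSub D ha hc, mem_aSub_of_forall D⟩

/-- The tautological pairing `A × B → ℤ`. -/
def pairAB : aSub D →ₗ[ℤ] BQ D →ₗ[ℤ] ℤ where
  toFun a := (cSub D).liftQ (stdForm (a : X → ℤ)) (fun _ hc => stdForm_aSub_cSub D a.2 hc)
  map_add' a a' := by
    refine LinearMap.ext fun b => ?_
    induction b using Submodule.Quotient.induction_on with
    | _ m =>
      show stdForm ((a + a' : aSub D) : X → ℤ) m = stdForm (a : X → ℤ) m + stdForm (a' : X → ℤ) m
      rw [Submodule.coe_add, map_add, LinearMap.add_apply]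
  map_smul' r a := by
    refine LinearMap.ext fun b => ?_
    induction b using Submodule.Quotient.induction_on with
    | _ m =>
      show stdForm ((r • a : aSub D) : X → ℤ) m = r • stdForm (a : X → ℤ) m
      rw [Submodule.coe_smul, map_smul, LinearMap.smul_apply]

@[simp] theorem pairAB_mk (a : aSub D) (m : X → ℤ) :
    pairAB D a (Submodule.Quotient.mk m) = stdForm (a : X → ℤ) m := rfl

/-- Every functional on `B` is `pairAB a` for some `a ∈ A`. -/
theorem pairAB_surjective (φ : BQ D →ₗ[ℤ] ℤ) : ∃ a, pairAB D a = φ := by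
  let a0 : X → ℤ := fun x => φ (Submodule.Quotient.mk (Pi.single x 1))
  have hrep : ∀ m : X → ℤ, φ (Submodule.Quotient.mk m) = stdForm a0 m := by
    intro m
    have hm : m = ∑ x, m x • (Pi.single x (1 : ℤ) : X → ℤ) := by
      funext y
      simp [Finset.sum_apply, Pi.single_apply]
    conv_lhs => rw [hm]
    have : (Submodule.Quotient.mk (∑ x, m x • (Pi.single x (1 : ℤ) : X → ℤ)) : BQ D) =
        ∑ x, m x • (Submodule.Quotient.mk (Pi.single x (1 : ℤ)) : BQ D) := by
      rw [← Submodule.mkQ_apply, map_sum]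
      rfl
    rw [this, map_sum, stdForm_apply]
    refine Finset.sum_congr rfl fun x _ => ?_
    rw [map_smul, smul_eq_mul, mul_comm]
  have ha0 : a0 ∈ aSub D := by
    rw [mem_aSub_iff_forall]
    intro c hc
    rw [← hrep, (Submodule.Quotient.mk_eq_zero _).2 hc, map_zero]
  refine ⟨⟨a0, ha0⟩, ?_⟩
  refine LinearMap.ext fun b => ?_
  induction b using Submodule.Quotient.induction_on with
  | _ m =>
    rw [pairAB_mk]
    exact (hrep m).symm

/-! ### (L3) the integral forgetful map `j : A → B` -/

/-- `a⁺ = max a 0`; satisfies `a⁺ ∘ S - a⁺ = -a` on `A`. -/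
def aplus (a : X → ℤ) : X → ℤ := fun x => max (a x) 0

/-- A canonical solution of `u ∘ U - u = a ∘ U` on `A`. -/
def uu (a : X → ℤ) : X → ℤ := fun x => max 0 (max (-(a (D.U x))) (a x))

theorem aplus_S {a : X → ℤ} (ha : a ∈ aSub D) (x : X) :
    aplus a (D.S x) - aplus a x = - a x := by
  have := ha.1 x
  unfold aplus
  omega

theorem uu_U {a : X → ℤ} (ha : a ∈ aSub D) (x : X) :
    uu D a (D.U x) - uu D a x = a (D.U x) := by
  have h1 := ha.2 x
  unfold uu
  omega

/-- `6 (a⁺ - u_a) ≡ a + 2 a∘U` modulo `C`. -/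
theorem six_smul_sub_mem {a : X → ℤ} (ha : a ∈ aSub D) :
    (6 : ℤ) • (aplus a - uu D a) - (a + (2 : ℤ) • (a ∘ D.U)) ∈ cSub D := by
  have hS : (2 : ℤ) • aplus a - a ∈ invSub D.S := by
    intro x
    have := aplus_S D ha x
    have h2 := ha.1 x
    simp only [Pi.sub_apply, Pi.smul_apply, smul_eq_mul]
    omega
  have hU : (3 : ℤ) • uu D a - (a - a ∘ D.U) ∈ invSub D.U := by
    intro x
    have := uu_U D ha x
    have h2 := ha.2 x
    simp only [Pi.sub_apply, Pi.smul_apply, smul_eq_mul, Function.comp_apply]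
    omega
  have : (6 : ℤ) • (aplus a - uu D a) - (a + (2 : ℤ) • (a ∘ D.U)) =
      (3 : ℤ) • ((2 : ℤ) • aplus a - a) + (-2 : ℤ) • ((3 : ℤ) • uu D a - (a - a ∘ D.U)) := by
    funext x
    simp only [Pi.sub_apply, Pi.add_apply, Pi.smul_apply, smul_eq_mul, Function.comp_apply]
    ring
  rw [this]
  exact Submodule.add_mem _ (Submodule.mem_sup_left (Submodule.smul_mem _ _ hS))
    (Submodule.mem_sup_right (Submodule.smul_mem _ _ hU))

theorem smul_six_cancel {b b' : BQ D} (h : (6 : ℤ) • b = (6 : ℤ) • b') : b = b' := by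
  have h6 : (6 : ℤ) ≠ 0 := by norm_num
  have := sub_eq_zero.2 h
  rw [← smul_sub, smul_eq_zero] at this
  rcases this with h0 | h0
  · exact absurd h0 h6
  · exact sub_eq_zero.1 h0

/-- The underlying function of `j`. -/
def jFun (a : aSub D) : BQ D := Submodule.Quotient.mk (aplus (a : X → ℤ) - uu D (a : X → ℤ))

theorem six_smul_jFun (a : aSub D) :
    (6 : ℤ) • jFun D a =
      Submodule.Quotient.mk ((a : X → ℤ) + (2 : ℤ) • ((a : X → ℤ) ∘ D.U)) := by
  unfold jFun
  rw [← Submodule.Quotient.mk_smul]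
  exact (Submodule.Quotient.eq _).2 (six_smul_sub_mem D a.2)

/-- `j : H¹_c → H¹`, integrally. -/
def jMap : aSub D →ₗ[ℤ] BQ D where
  toFun := jFun D
  map_add' a a' := by
    apply smul_six_cancel
    rw [smul_add, six_smul_jFun, six_smul_jFun, six_smul_jFun, ← Submodule.Quotient.mk_add]
    congr 1
    funext x
    simp only [Submodule.coe_add, Pi.add_apply, Pi.smul_apply, smul_eq_mul, Function.comp_apply]
    ring
  map_smul' r a := by
    apply smul_six_cancel
    rw [RingHom.id_apply, smul_comm, six_smul_jFun, six_smul_jFun, ← Submodule.Quotient.mk_smul]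
    congr 1
    funext x
    simp only [Submodule.coe_smul, Pi.add_apply, Pi.smul_apply, smul_eq_mul, Function.comp_apply]
    ring

theorem jMap_apply (a : aSub D) :
    jMap D a = Submodule.Quotient.mk (aplus (a : X → ℤ) - uu D (a : X → ℤ)) := rfl

theorem six_smul_jMap (a : aSub D) :
    (6 : ℤ) • jMap D a =
      Submodule.Quotient.mk ((a : X → ℤ) + (2 : ℤ) • ((a : X → ℤ) ∘ D.U)) :=
  six_smul_jFun D a

/-! ### (L4) `j` is skew -/

theorem six_mul_pairAB_jMap (a a' : aSub D) :
    6 * pairAB D a (jMap D a') =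
      stdForm (a : X → ℤ) (a' : X → ℤ) + 2 * stdForm (a : X → ℤ) ((a' : X → ℤ) ∘ D.U) := by
  have : 6 * pairAB D a (jMap D a') = pairAB D a ((6 : ℤ) • jMap D a') := by
    rw [map_smul, smul_eq_mul]
  rw [this, six_smul_jMap, pairAB_mk, map_add, map_smul, smul_eq_mul]

theorem pairAB_skew (a a' : aSub D) : pairAB D a (jMap D a') = - pairAB D a' (jMap D a) := by
  have h1 := six_mul_pairAB_jMap D a a'
  have h2 := six_mul_pairAB_jMap D a' a
  -- `(a', a∘U) = (a'∘U∘U, a)`
  have h3 : stdForm (a' : X → ℤ) ((a : X → ℤ) ∘ D.U) =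
      stdForm (a : X → ℤ) (((a' : X → ℤ) ∘ D.U) ∘ D.U) := by
    have e1 := stdForm_comp_perm D.U ((a' : X → ℤ) ∘ D.U) (((a : X → ℤ) ∘ D.U) ∘ D.U)
    have e2 := stdForm_comp_perm D.U (a' : X → ℤ) ((a : X → ℤ) ∘ D.U)
    have e3 : (((a : X → ℤ) ∘ D.U) ∘ D.U) ∘ D.U = (a : X → ℤ) := by
      funext x; simp only [Function.comp_apply, D.hU]
    rw [← e2, ← e1, e3, stdForm_comm]
  have h4 : stdForm (a : X → ℤ) (a' : X → ℤ) + stdForm (a : X → ℤ) ((a' : X → ℤ) ∘ D.U) +
      stdForm (a : X → ℤ) (((a' : X → ℤ) ∘ D.U) ∘ D.U) = 0 := by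
    rw [← map_add, ← map_add]
    have : (a' : X → ℤ) + (a' : X → ℤ) ∘ D.U + ((a' : X → ℤ) ∘ D.U) ∘ D.U = 0 := by
      funext x
      exact a'.2.2 x
    rw [this, map_zero]
  have h5 := stdForm_comm (a : X → ℤ) (a' : X → ℤ)
  omega

/-! ### (L5) the parabolic condition; `range j` is saturated -/

/-- `m` is parabolic: `m - m∘U` is a `T`-coboundary, `T = S ∘ U`. -/
def parSub : Submodule ℤ (X → ℤ) where
  carrier := {m | ∃ h : X → ℤ, ∀ x, m x - m (D.U x) = h x - h (D.S (D.U x))}
  add_mem' := by
    rintro m m' ⟨h, hh⟩ ⟨h', hh'⟩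
    refine ⟨h + h', fun x => ?_⟩
    have := hh x; have := hh' x
    simp only [Pi.add_apply]; omega
  zero_mem' := ⟨0, fun x => by simp⟩
  smul_mem' := by
    rintro r m ⟨h, hh⟩
    refine ⟨r • h, fun x => ?_⟩
    have := hh x
    simp only [Pi.smul_apply, smul_eq_mul]
    rw [← mul_sub, ← mul_sub, this]

theorem cSub_le_parSub : cSub D ≤ parSub D := by
  refine sup_le ?_ ?_
  · intro m hm
    refine ⟨m, fun x => ?_⟩
    rw [hm (D.U x)]
  · intro m hm
    refine ⟨0, fun x => ?_⟩
    rw [hm x]; simp

theorem parSub_saturated (n : ℤ) (m : X → ℤ) (hn : n ≠ 0) (hm : n • m ∈ parSub D) :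
    m ∈ parSub D := by
  obtain ⟨h, hh⟩ := hm
  simp only [Pi.smul_apply, smul_eq_mul] at hh
  have hmod : ∀ x, h (D.S (D.U x)) % n = h x % n := by
    intro x
    rw [Int.emod_eq_emod_iff_emod_sub_eq_zero]
    have : h (D.S (D.U x)) - h x = n * (m (D.U x) - m x) := by
      have := hh x
      rw [mul_sub]; omega
    rw [this]
    exact Int.mul_emod_right n _
  refine ⟨fun x => h x / n, fun x => ?_⟩
  have h1 := Int.emod_add_mul_ediv (h x) n
  have h2 := Int.emod_add_mul_ediv (h (D.S (D.U x))) n
  have h3 := hh x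
  have h4 := hmod x
  have : n * (m x - m (D.U x)) = n * (h x / n - h (D.S (D.U x)) / n) := by
    rw [mul_sub, mul_sub]
    omega
  exact mul_left_cancel₀ hn this

theorem jMap_mem_par (a : aSub D) : aplus (a : X → ℤ) - uu D (a : X → ℤ) ∈ parSub D := by
  refine ⟨aplus (a : X → ℤ), fun x => ?_⟩
  have h1 := aplus_S D a.2 (D.U x)
  have h2 := uu_U D a.2 x
  simp only [Pi.sub_apply]
  omega

theorem exists_of_mem_par {m : X → ℤ} (hm : m ∈ parSub D) :
    ∃ a : aSub D, jMap D a = Submodule.Quotient.mk m := by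
  obtain ⟨h, hh⟩ := hm
  -- `e = h - h∘S`
  have he : (fun x => h x - h (D.S x)) ∈ aSub D := by
    constructor
    · intro x
      simp only [D.hS]; ring
    · intro x
      have h1 := hh x
      have h2 := hh (D.U x)
      have h3 := hh (D.U (D.U x))
      rw [D.hU] at h3
      simp only
      -- `k - k∘U = e∘U`, telescoping over the `U`-orbit
      omega
  refine ⟨⟨_, he⟩, ?_⟩
  rw [jMap_apply, Submodule.Quotient.eq]
  set e : X → ℤ := fun x => h x - h (D.S x) with hedef
  have hs : aplus e - h ∈ invSub D.S := by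
    intro x
    have := aplus_S D he x
    simp only [Pi.sub_apply]
    simp only [hedef] at this ⊢
    omega
  have hu : uu D e - h + m ∈ invSub D.U := by
    intro x
    have h1 := uu_U D he x
    have h2 := hh x
    simp only [Pi.add_apply, Pi.sub_apply]
    simp only [hedef] at h1 ⊢
    omega
  have : aplus e - uu D e - m = (aplus e - h) + (-1 : ℤ) • (uu D e - h + m) := by
    funext x
    simp only [Pi.sub_apply, Pi.add_apply, Pi.smul_apply, smul_eq_mul]
    ring
  rw [this]
  exact Submodule.add_mem _ (Submodule.mem_sup_left hs)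
    (Submodule.mem_sup_right (Submodule.smul_mem _ _ hu))

theorem range_jMap_eq : LinearMap.range (jMap D) = (parSub D).map (cSub D).mkQ := by
  apply le_antisymm
  · rintro _ ⟨a, rfl⟩
    exact ⟨_, jMap_mem_par D a, rfl⟩
  · rintro _ ⟨m, hm, rfl⟩
    obtain ⟨a, ha⟩ := exists_of_mem_par D hm
    exact ⟨a, ha⟩

theorem range_jMap_saturated (n : ℤ) (b : BQ D) (hn : n ≠ 0)
    (hb : n • b ∈ LinearMap.range (jMap D)) : b ∈ LinearMap.range (jMap D) := by
  rw [range_jMap_eq] at hb ⊢
  induction b using Submodule.Quotient.induction_on with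
  | _ m =>
    obtain ⟨m', hm', hmm⟩ := hb
    rw [Submodule.mkQ_apply, ← Submodule.Quotient.mk_smul, Submodule.Quotient.eq] at hmm
    have : n • m ∈ parSub D := by
      have h1 := cSub_le_parSub D hmm
      have h2 := Submodule.sub_mem _ hm' h1
      simpa using h2
    exact ⟨m, parSub_saturated D n m hn this, rfl⟩

/-! ### The unimodular cup form on `P = H¹_par` -/

/-- `P = H¹_par`, as a submodule of `B = H¹`. -/
abbrev PQ : Submodule ℤ (BQ D) := LinearMap.range (jMap D)

/-- The cup-product form on `H¹_par`. -/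
noncomputable def cupForm : PQ D →ₗ[ℤ] PQ D →ₗ[ℤ] ℤ :=
  inducedForm (pairAB D) (jMap D) (pairAB_skew D)

theorem cupForm_apply (a : aSub D) (p : PQ D) :
    cupForm D ⟨jMap D a, ⟨a, rfl⟩⟩ p = pairAB D a (p : BQ D) :=
  inducedForm_apply _ _ _ a p

/-- POINCARÉ DUALITY: the cup form on `H¹_par` is unimodular. -/
theorem cupForm_bijective : Function.Bijective (cupForm D) :=
  inducedForm_bijective (pairAB D) (jMap D) (pairAB_surjective D) (pairAB_skew D)
    (range_jMap_saturated D)

theorem cupForm_skew (p p' : PQ D) : cupForm D p p' = - cupForm D p' p := by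
  obtain ⟨_, a, rfl⟩ := p
  obtain ⟨_, a', rfl⟩ := p'
  rw [cupForm_apply, cupForm_apply]
  exact pairAB_skew D a a'

end Fermat.Agent.GM.PD
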