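/-
GATE-M (S41) / D1-LATTICE, file 3 (helper23).  Mathlib only.

Functoriality of the Manin model for an `(S,U)`-equivariant map `π : X' → X`
(`X' = Γ'\PSL₂(ℤ) → X = Γ\PSL₂(ℤ)` for `Γ' ≤ Γ`): pull-back `m ↦ m ∘ π` (restriction) and
push-forward = fibre sums (corestriction) are adjoint for the standard forms, preserve
`A = H¹_c`, `C`, the parabolic condition, commute with `j`, and hence are ADJOINT for the
cup forms on `H¹_par`:  `cupForm D' (pullP p) p' = cupForm D p (pushP p')`.
-/
import Mathlib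
import Fermat.Agent.GM.PD.ManinLattice

set_option autoImplicit false
set_option linter.unusedSectionVars false

namespace Fermat.Agent.GM.PD

open Module

variable {X X' : Type*} [Fintype X] [Fintype X'] [DecidableEq X] [DecidableEq X']

/-- Pull-back of functions. -/
def pullM (π : X' → X) : (X → ℤ) →ₗ[ℤ] (X' → ℤ) := LinearMap.funLeft ℤ ℤ π

@[simp] theorem pullM_apply (π : X' → X) (m : X → ℤ) (x' : X') : pullM π m x' = m (π x') := rfl

/-- Push-forward of functions: sums over the fibres. -/
def pushM (π : X' → X) : (X' → ℤ) →ₗ[ℤ] (X → ℤ) where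
  toFun m' x := ∑ x', if π x' = x then m' x' else 0
  map_add' a b := by
    funext x
    simp only [Pi.add_apply, ← Finset.sum_add_distrib]
    refine Finset.sum_congr rfl fun x' _ => ?_
    split_ifs <;> simp
  map_smul' r a := by
    funext x
    simp only [Pi.smul_apply, smul_eq_mul, RingHom.id_apply, Finset.mul_sum]
    refine Finset.sum_congr rfl fun x' _ => ?_
    split_ifs <;> simp

theorem pushM_apply (π : X' → X) (m' : X' → ℤ) (x : X) :
    pushM π m' x = ∑ x', if π x' = x then m' x' else 0 := rfl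

/-- Adjointness of pull-back and push-forward. -/
theorem stdForm_pullM (π : X' → X) (m : X → ℤ) (m' : X' → ℤ) :
    stdForm (pullM π m) m' = stdForm m (pushM π m') := by
  simp only [stdForm_apply, pullM_apply, pushM_apply, Finset.mul_sum]
  rw [Finset.sum_comm]
  refine Finset.sum_congr rfl fun x' _ => ?_
  simp

theorem stdForm_pushM (π : X' → X) (m' : X' → ℤ) (m : X → ℤ) :
    stdForm (pushM π m') m = stdForm m' (pullM π m) := by
  rw [stdForm_comm, ← stdForm_pullM, stdForm_comm]

/-- Push-forward intertwines compatible permutations. -/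
theorem pushM_comp_perm (π : X' → X) (g' : Equiv.Perm X') (g : Equiv.Perm X)
    (hg : ∀ x', π (g' x') = g (π x')) (m' : X' → ℤ) :
    pushM π (m' ∘ g') = pushM π m' ∘ g := by
  funext x
  simp only [pushM_apply, Function.comp_apply]
  rw [← Equiv.sum_comp g' (fun x' => if π x' = g x then m' x' else 0)]
  refine Finset.sum_congr rfl fun x' _ => ?_
  rw [hg x']
  simp only [g.injective.eq_iff]

theorem pullM_comp_perm (π : X' → X) (g' : Equiv.Perm X') (g : Equiv.Perm X)
    (hg : ∀ x', π (g' x') = g (π x')) (m : X → ℤ) :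
    pullM π (m ∘ g) = pullM π m ∘ g' := by
  funext x'
  simp only [pullM_apply, Function.comp_apply, hg x']

/-- `push ∘ pull = degree` when all fibres have the same cardinality. -/
theorem pushM_pullM (π : X' → X) (d : ℕ)
    (hd : ∀ x, (Finset.univ.filter fun x' => π x' = x).card = d) (m : X → ℤ) :
    pushM π (pullM π m) = (d : ℤ) • m := by
  funext x
  simp only [pushM_apply, pullM_apply, Pi.smul_apply, smul_eq_mul]
  rw [← Finset.sum_filter]
  rw [Finset.sum_congr rfl (g := fun _ => m x)]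
  · rw [Finset.sum_const, hd x]; simp
  · intro x' hx'
    rw [(Finset.mem_filter.1 hx').2]

/-- An equivariant map of `(S,U)`-sets. -/
structure SUHom (D' : SUData X') (D : SUData X) where
  toFun : X' → X
  map_S : ∀ x', toFun (D'.S x') = D.S (toFun x')
  map_U : ∀ x', toFun (D'.U x') = D.U (toFun x')

variable {D' : SUData X'} {D : SUData X} (π : SUHom D' D)

/-! ### preservation of the submodules -/

theorem pullM_mem_invS {m : X → ℤ} (hm : m ∈ invSub D.S) : pullM π.toFun m ∈ invSub D'.S := by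
  intro x'
  simp only [pullM_apply, π.map_S, hm (π.toFun x')]

theorem pullM_mem_invU {m : X → ℤ} (hm : m ∈ invSub D.U) : pullM π.toFun m ∈ invSub D'.U := by
  intro x'
  simp only [pullM_apply, π.map_U, hm (π.toFun x')]

theorem pullM_mem_cSub {m : X → ℤ} (hm : m ∈ cSub D) : pullM π.toFun m ∈ cSub D' := by
  obtain ⟨s, hs, u, hu, rfl⟩ := Submodule.mem_sup.1 hm
  rw [map_add]
  exact Submodule.add_mem _ (Submodule.mem_sup_left (pullM_mem_invS π hs))
    (Submodule.mem_sup_right (pullM_mem_invU π hu))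

theorem pullM_mem_aSub {a : X → ℤ} (ha : a ∈ aSub D) : pullM π.toFun a ∈ aSub D' := by
  refine ⟨fun x' => ?_, fun x' => ?_⟩
  · simp only [pullM_apply, π.map_S]
    exact ha.1 _
  · simp only [pullM_apply, π.map_U]
    exact ha.2 _

theorem pullM_mem_parSub {m : X → ℤ} (hm : m ∈ parSub D) : pullM π.toFun m ∈ parSub D' := by
  obtain ⟨h, hh⟩ := hm
  refine ⟨pullM π.toFun h, fun x' => ?_⟩
  simp only [pullM_apply, π.map_S, π.map_U]
  exact hh _

theorem pushM_comp_S (m' : X' → ℤ) : pushM π.toFun (m' ∘ D'.S) = pushM π.toFun m' ∘ D.S :=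
  pushM_comp_perm π.toFun D'.S D.S π.map_S m'

theorem pushM_comp_U (m' : X' → ℤ) : pushM π.toFun (m' ∘ D'.U) = pushM π.toFun m' ∘ D.U :=
  pushM_comp_perm π.toFun D'.U D.U π.map_U m'

theorem pushM_mem_invS {m' : X' → ℤ} (hm : m' ∈ invSub D'.S) : pushM π.toFun m' ∈ invSub D.S := by
  intro x
  have h1 : m' ∘ D'.S = m' := funext hm
  have := congrFun (pushM_comp_S π m') x
  rw [h1] at this
  exact this.symm

theorem pushM_mem_invU {m' : X' → ℤ} (hm : m' ∈ invSub D'.U) : pushM π.toFun m' ∈ invSub D.U := by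
  intro x
  have h1 : m' ∘ D'.U = m' := funext hm
  have := congrFun (pushM_comp_U π m') x
  rw [h1] at this
  exact this.symm

theorem pushM_mem_cSub {m' : X' → ℤ} (hm : m' ∈ cSub D') : pushM π.toFun m' ∈ cSub D := by
  obtain ⟨s, hs, u, hu, rfl⟩ := Submodule.mem_sup.1 hm
  rw [map_add]
  exact Submodule.add_mem _ (Submodule.mem_sup_left (pushM_mem_invS π hs))
    (Submodule.mem_sup_right (pushM_mem_invU π hu))

theorem pushM_mem_aSub {a' : X' → ℤ} (ha : a' ∈ aSub D') : pushM π.toFun a' ∈ aSub D := by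
  refine ⟨fun x => ?_, fun x => ?_⟩
  · have h1 : a' + a' ∘ D'.S = 0 := funext fun x' => ha.1 x'
    have h2 := congrArg (pushM π.toFun) h1
    rw [map_add, pushM_comp_S, map_zero] at h2
    exact congrFun h2 x
  · have h1 : a' + a' ∘ D'.U + (a' ∘ D'.U) ∘ D'.U = 0 := funext fun x' => ha.2 x'
    have h2 := congrArg (pushM π.toFun) h1
    rw [map_add, map_add, pushM_comp_U, pushM_comp_U, pushM_comp_U, map_zero] at h2
    exact congrFun h2 x

theorem pushM_mem_parSub {m' : X' → ℤ} (hm : m' ∈ parSub D') : pushM π.toFun m' ∈ parSub D := by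
  obtain ⟨h, hh⟩ := hm
  refine ⟨pushM π.toFun h, fun x => ?_⟩
  have h1 : m' - m' ∘ D'.U = h - (h ∘ D'.S) ∘ D'.U := funext fun x' => hh x'
  have h2 := congrArg (pushM π.toFun) h1
  rw [map_sub, map_sub, pushM_comp_U, pushM_comp_U, pushM_comp_S] at h2
  exact congrFun h2 x

/-! ### induced maps on `A`, `B`, `P` -/

/-- restriction on `H¹_c`. -/
def pullA : aSub D →ₗ[ℤ] aSub D' :=
  (pullM π.toFun).restrict (fun _ ha => pullM_mem_aSub π ha)

/-- corestriction on `H¹_c`. -/
def pushA : aSub D' →ₗ[ℤ] aSub D :=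
  (pushM π.toFun).restrict (fun _ ha => pushM_mem_aSub π ha)

/-- restriction on `H¹`. -/
def pullB : BQ D →ₗ[ℤ] BQ D' :=
  (cSub D).mapQ (cSub D') (pullM π.toFun) (fun _ hm => pullM_mem_cSub π hm)

/-- corestriction on `H¹`. -/
def pushB : BQ D' →ₗ[ℤ] BQ D :=
  (cSub D').mapQ (cSub D) (pushM π.toFun) (fun _ hm => pushM_mem_cSub π hm)

@[simp] theorem pullA_coe (a : aSub D) : ((pullA π a : aSub D') : X' → ℤ) = pullM π.toFun a := rfl
@[simp] theorem pushA_coe (a' : aSub D') : ((pushA π a' : aSub D) : X → ℤ) = pushM π.toFun a' := rfl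
@[simp] theorem pullB_mk (m : X → ℤ) :
    pullB π (Submodule.Quotient.mk m) = Submodule.Quotient.mk (pullM π.toFun m) := rfl
@[simp] theorem pushB_mk (m' : X' → ℤ) :
    pushB π (Submodule.Quotient.mk m') = Submodule.Quotient.mk (pushM π.toFun m') := rfl

theorem pairAB_pullA (a : aSub D) (b' : BQ D') :
    pairAB D' (pullA π a) b' = pairAB D a (pushB π b') := by
  induction b' using Submodule.Quotient.induction_on with
  | _ m' => rw [pushB_mk, pairAB_mk, pairAB_mk, pullA_coe, stdForm_pullM]

theorem pairAB_pushA (a' : aSub D') (b : BQ D) :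
    pairAB D (pushA π a') b = pairAB D' a' (pullB π b) := by
  induction b using Submodule.Quotient.induction_on with
  | _ m => rw [pullB_mk, pairAB_mk, pairAB_mk, pushA_coe, stdForm_pushM]

theorem jMap_pullA (a : aSub D) : jMap D' (pullA π a) = pullB π (jMap D a) := by
  apply smul_six_cancel
  rw [six_smul_jMap, ← map_smul, six_smul_jMap, pullB_mk, pullA_coe, map_add, map_smul,
    pullM_comp_perm π.toFun D'.U D.U π.map_U]

theorem jMap_pushA (a' : aSub D') : jMap D (pushA π a') = pushB π (jMap D' a') := by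
  apply smul_six_cancel
  rw [six_smul_jMap, ← map_smul, six_smul_jMap, pushB_mk, pushA_coe, map_add, map_smul,
    pushM_comp_U]

/-- restriction on `H¹_par`. -/
def pullP : PQ D →ₗ[ℤ] PQ D' :=
  (pullB π).restrict (by
    rintro _ ⟨a, rfl⟩
    exact ⟨pullA π a, jMap_pullA π a⟩)

/-- corestriction on `H¹_par`. -/
def pushP : PQ D' →ₗ[ℤ] PQ D :=
  (pushB π).restrict (by
    rintro _ ⟨a', rfl⟩
    exact ⟨pushA π a', jMap_pushA π a'⟩)

@[simp] theorem pullP_coe (p : PQ D) : ((pullP π p : PQ D') : BQ D') = pullB π (p : BQ D) := rfl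
@[simp] theorem pushP_coe (p' : PQ D') : ((pushP π p' : PQ D) : BQ D) = pushB π (p' : BQ D') := rfl

/-- (D2) in the model: restriction and corestriction are adjoint for the cup forms. -/
theorem cupForm_pullP (p : PQ D) (p' : PQ D') :
    cupForm D' (pullP π p) p' = cupForm D p (pushP π p') := by
  obtain ⟨_, a, rfl⟩ := p
  have h1 : pullP π ⟨jMap D a, ⟨a, rfl⟩⟩ = ⟨jMap D' (pullA π a), ⟨pullA π a, rfl⟩⟩ := by
    apply Subtype.ext
    rw [pullP_coe]
    exact (jMap_pullA π a).symm
  rw [h1, cupForm_apply, cupForm_apply, pairAB_pullA, pushP_coe]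

theorem cupForm_pushP (p' : PQ D') (p : PQ D) :
    cupForm D (pushP π p') p = cupForm D' p' (pullP π p) := by
  rw [cupForm_skew, ← cupForm_pullP, ← cupForm_skew]

/-- `cores ∘ res = index` on `H¹` and on `H¹_par`, when all fibres have `d` elements. -/
theorem pushB_pullB (d : ℕ)
    (hd : ∀ x, (Finset.univ.filter fun x' => π.toFun x' = x).card = d) (b : BQ D) :
    pushB π (pullB π b) = (d : ℤ) • b := by
  induction b using Submodule.Quotient.induction_on with
  | _ m => rw [pullB_mk, pushB_mk, pushM_pullM π.toFun d hd, Submodule.Quotient.mk_smul]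

theorem pushP_pullP (d : ℕ)
    (hd : ∀ x, (Finset.univ.filter fun x' => π.toFun x' = x).card = d) (p : PQ D) :
    pushP π (pullP π p) = (d : ℤ) • p := by
  apply Subtype.ext
  rw [pushP_coe, pullP_coe, pushB_pullB π d hd]
  rfl

end Fermat.Agent.GM.PD
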