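/-
GATE-M (S41) / D1-LATTICE, file 4 (helper23).  Mathlib only.

Reduction mod `n` of a unimodular form: the exact binder shapes `hB`, `hB2` of
helper98's `GM/Alg/DualIhara.dual_ihara_of_pairing` / `GM/Alg/Chain` (left non-degeneracy mod `p`
of a `ZMod p`-valued biadditive map), abstractly for any bijective `Q : P → Hom(P, ℤ)` and
concretely for the cup form of the Manin model.
-/
import Mathlib
import Fermat.Agent.GM.PD.Functorial

set_option autoImplicit false
set_option linter.unusedSectionVars false

namespace Fermat.Agent.GM.PD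

section Abstract

variable {P : Type*} [AddCommGroup P]

/-- Reduction mod `n` of an integral bilinear form, as a biadditive map. -/
def redForm (n : ℕ) (Q : P →ₗ[ℤ] P →ₗ[ℤ] ℤ) : P →+ P →+ ZMod n where
  toFun x := (Int.castAddHom (ZMod n)).comp (Q x).toAddMonoidHom
  map_zero' := by
    ext y
    simp
  map_add' x x' := by
    ext y
    simp

@[simp] theorem redForm_apply (n : ℕ) (Q : P →ₗ[ℤ] P →ₗ[ℤ] ℤ) (x y : P) :
    redForm n Q x y = ((Q x y : ℤ) : ZMod n) := rfl

/-- A unimodular form is left non-degenerate modulo every `n`. -/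
theorem redForm_left_nondeg (n : ℕ) (Q : P →ₗ[ℤ] P →ₗ[ℤ] ℤ) (hQ : Function.Surjective Q)
    (hQi : Function.Injective Q) (x : P) (hx : ∀ y, redForm n Q x y = 0) :
    ∃ z : P, x = (n : ℤ) • z := by
  -- `Q x = n • φ` for a functional `φ`, and `φ = Q z`.
  have hdiv : ∀ y, (n : ℤ) ∣ Q x y := by
    intro y
    have := hx y
    rw [redForm_apply] at this
    exact (ZMod.intCast_zmod_eq_zero_iff_dvd _ _).1 this
  by_cases hn : n = 0
  · subst hn
    refine ⟨0, ?_⟩
    apply hQi
    ext y
    have := hdiv y
    simp only [Nat.cast_zero, zero_dvd_iff] at this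
    simp [this]
  · have hn' : (n : ℤ) ≠ 0 := by exact_mod_cast hn
    let φ : P →ₗ[ℤ] ℤ :=
      { toFun := fun y => Q x y / (n : ℤ)
        map_add' := by
          intro y y'
          rw [map_add]
          exact Int.add_ediv_of_dvd_left (hdiv y)
        map_smul' := by
          intro r y
          rw [map_smul, smul_eq_mul, RingHom.id_apply, smul_eq_mul]
          exact Int.mul_ediv_assoc r (hdiv y) }
    obtain ⟨z, hz⟩ := hQ φ
    refine ⟨z, ?_⟩
    apply hQi
    ext y
    rw [map_smul, LinearMap.smul_apply, hz, smul_eq_mul]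
    show Q x y = (n : ℤ) * (Q x y / (n : ℤ))
    exact (Int.mul_ediv_cancel' (hdiv y)).symm

/-- Conversely the reduced form vanishes on `n • P`. -/
theorem redForm_smul_left (n : ℕ) (Q : P →ₗ[ℤ] P →ₗ[ℤ] ℤ) (z y : P) :
    redForm n Q ((n : ℤ) • z) y = 0 := by
  rw [redForm_apply, map_smul, LinearMap.smul_apply, smul_eq_mul]
  simp

end Abstract

section Model

variable {X : Type*} [Fintype X] [DecidableEq X] (D : SUData X)

/-- The cup form of the Manin model modulo `n`. -/
noncomputable def cupFormMod (n : ℕ) : PQ D →+ PQ D →+ ZMod n := redForm n (cupForm D)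

theorem cupFormMod_apply (n : ℕ) (p p' : PQ D) :
    cupFormMod D n p p' = ((cupForm D p p' : ℤ) : ZMod n) := rfl

/-- `hB` of `dual_ihara_of_pairing` for the Manin model: Poincaré duality mod `n`
(every `n`, in particular `n = 3`). -/
theorem cupFormMod_left_nondeg (n : ℕ) (p : PQ D) (hp : ∀ p', cupFormMod D n p p' = 0) :
    ∃ z : PQ D, p = (n : ℤ) • z :=
  redForm_left_nondeg n (cupForm D) (cupForm_bijective D).2 (cupForm_bijective D).1 p hp

theorem cupFormMod_skew (n : ℕ) (p p' : PQ D) : cupFormMod D n p p' = - cupFormMod D n p' p := by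
  rw [cupFormMod_apply, cupFormMod_apply, cupForm_skew]
  push_cast
  ring

variable {X' : Type*} [Fintype X'] [DecidableEq X'] {D' : SUData X'} {D}

/-- `hadj` of `dual_ihara_of_pairing` for restriction/corestriction in the model. -/
theorem cupFormMod_pullP (π : SUHom D' D) (n : ℕ) (p : PQ D) (p' : PQ D') :
    cupFormMod D' n (pullP π p) p' = cupFormMod D n p (pushP π p') := by
  rw [cupFormMod_apply, cupFormMod_apply, cupForm_pullP]

end Model

end Fermat.Agent.GM.PD
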