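/-
GATE-M / S41-(D1b): non-degeneracy of the face-sum (cup product) pairing on the Manin
model of a finite oriented triangulated surface, via explicit Poincare-dual cocycles of
closed walks.  Mathlib only.

Model: a finite set `X` of darts (for us `Γ\PSL₂(ℤ)`), two permutations `S`, `U` with
`S ∘ S = 1` and `U ∘ U ∘ U = 1` (fixed points allowed).  `rho = S ∘ U⁻¹` is the vertex
rotation.  Cocycles (= modular symbols) are the functions `a : X → ℤ` with
`a ∘ S = -a` and `a + a ∘ U + a ∘ U ∘ U = 0`; coboundaries are `x ↦ u (S x) - u x` for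
`u` constant on the orbits of `rho`.

Main result `nondeg_Q3`: if `a` is a cocycle and `3 n ∣ Q3 a b` for every cocycle `b`
(`n` odd), then `a = dlt u + n • a'` with `u` a vertex function and `a'` a cocycle.
-/
import Mathlib

set_option autoImplicit false

namespace Fermat.Agent.GM.PD.DualCocycle

open Finset

variable {X : Type*} [Fintype X] [DecidableEq X]

/-- Cocycles of the combinatorial map `(X; S, U)` (= modular symbols). -/
def IsCocycle (S U : Equiv.Perm X) (a : X → ℤ) : Prop :=
  (∀ x, a (S x) = - a x) ∧ (∀ x, a x + a (U x) + a (U (U x)) = 0)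

/-- The vertex rotation `rho = S ∘ U ∘ U = S ∘ U⁻¹`. -/
def rho (S U : Equiv.Perm X) : Equiv.Perm X := S * U * U

/-- The coboundary of a function on darts (meant for vertex functions `u ∘ rho = u`). -/
def dlt (S : Equiv.Perm X) (u : X → ℤ) : X → ℤ := fun x => u (S x) - u x

/-- Three times the face-sum pairing (six times the intersection pairing). -/
def Q3 (U : Equiv.Perm X) (a b : X → ℤ) : ℤ :=
  ∑ x, (a x * b (U x) - a (U x) * b x)

omit [DecidableEq X] in
theorem Q3_skew (U : Equiv.Perm X) (a b : X → ℤ) : Q3 U a b = - Q3 U b a := by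
  unfold Q3
  rw [← Finset.sum_neg_distrib]
  refine Finset.sum_congr rfl fun x _ => ?_
  ring

omit [DecidableEq X] in
theorem Q3_add_right (U : Equiv.Perm X) (a b c : X → ℤ) :
    Q3 U a (b + c) = Q3 U a b + Q3 U a c := by
  unfold Q3
  rw [← Finset.sum_add_distrib]
  refine Finset.sum_congr rfl fun x _ => ?_
  simp only [Pi.add_apply]; ring

omit [DecidableEq X] in
theorem Q3_zero_right (U : Equiv.Perm X) (a : X → ℤ) : Q3 U a 0 = 0 := by
  unfold Q3; simp

section basic

variable (S U : Equiv.Perm X)

omit [Fintype X] [DecidableEq X] in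
theorem rho_apply (x : X) : rho S U x = S (U (U x)) := rfl

omit [Fintype X] [DecidableEq X] in
theorem isCocycle_dlt (hS : ∀ x, S (S x) = x) (hU : ∀ x, U (U (U x)) = x)
    (u : X → ℤ) (hu : ∀ x, u (rho S U x) = u x) : IsCocycle S U (dlt S u) := by
  constructor
  · intro x; simp only [dlt, hS]; ring
  · intro x
    have h1 := hu x
    have h2 := hu (U x)
    have h3 := hu (U (U x))
    simp only [rho_apply, hU] at h1 h2 h3
    simp only [dlt]
    linear_combination h2 + h3 + h1

end basic

section dual

variable (S U : Equiv.Perm X)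

/-- The elementary antisymmetric cochain `δ_y - δ_{S y}`. -/
def estar (y : X) : X → ℤ := fun z => (if z = y then 1 else 0) - (if z = S y then 1 else 0)

/-- `g_a y = a (U⁻¹ y) - a (U y)`, so that `Q3 a b = ∑ y, b y * g_a y`. -/
def gfun (a : X → ℤ) (y : X) : ℤ := a (U (U y)) - a (U y)

omit [DecidableEq X] in
theorem Q3_eq_sum_gfun (hU : ∀ x, U (U (U x)) = x) (a b : X → ℤ) :
    Q3 U a b = ∑ y, b y * gfun U a y := by
  unfold Q3 gfun
  have h1 : ∑ x, a x * b (U x) = ∑ y, a (U (U y)) * b y := by
    rw [← Equiv.sum_comp U (fun y => a (U (U y)) * b y)]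
    refine Finset.sum_congr rfl fun x _ => ?_
    simp only [hU]
  rw [Finset.sum_sub_distrib, h1, ← Finset.sum_sub_distrib]
  refine Finset.sum_congr rfl fun x _ => ?_
  ring

theorem Q3_estar (hU : ∀ x, U (U (U x)) = x) (a : X → ℤ) (y : X) :
    Q3 U a (estar S y) = gfun U a y - gfun U a (S y) := by
  rw [Q3_eq_sum_gfun U hU]
  simp only [estar, sub_mul, ite_mul, one_mul, zero_mul, Finset.sum_sub_distrib,
    Finset.sum_ite_eq', Finset.mem_univ, if_true]

/-- The potential `psi_a`. -/
def psi (a : X → ℤ) (x : X) : ℤ := -2 * a (U (S x)) - 4 * a x + 2 * a (U (U x))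

theorem Q3_estar_rho (hS : ∀ x, S (S x) = x) (hU : ∀ x, U (U (U x)) = x)
    (a : X → ℤ) (ha : IsCocycle S U a) (x : X) :
    Q3 U a (estar S x + estar S (rho S U x)) = psi S U a (rho S U x) - psi S U a x := by
  rw [Q3_add_right, Q3_estar S U hU, Q3_estar S U hU]
  simp only [gfun, psi, rho_apply, hS, hU]
  have c1 := ha.2 x
  have c2 := ha.2 (S x)
  have c3 := ha.2 (S (U (U x)))
  have s1 := ha.1 x
  have s2 := ha.1 (U (U x))
  linear_combination (-2 : ℤ) * c1 - c2 - c3 + s1 + 5 * s2

omit [Fintype X] [DecidableEq X] in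
theorem psi_S (hS : ∀ x, S (S x) = x) (a : X → ℤ) (ha : IsCocycle S U a) (x : X) :
    psi S U a (S x) - psi S U a x = 12 * a x := by
  simp only [psi, hS]
  have c1 := ha.2 x
  have c2 := ha.2 (S x)
  have s1 := ha.1 x
  linear_combination (-2 : ℤ) * c1 + 2 * c2 - 6 * s1

/-- `Nfun x z` is the face sum at `z` of the indicator function of `x`. -/
def Nfun (x z : X) : ℤ :=
  (if z = x then 1 else 0) + (if U z = x then 1 else 0) + (if U (U z) = x then 1 else 0)

omit [Fintype X] in
theorem Nfun_UU (hU : ∀ x, U (U (U x)) = x) (x z : X) : Nfun U (U (U x)) z = Nfun U x z := by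
  have h1 : (z = U (U x)) = (U z = x) := propext
    ⟨fun h => by rw [h, hU], fun h => by rw [← h, hU]⟩
  have h2 : (U z = U (U x)) = (U (U z) = x) := propext
    ⟨fun h => by rw [h, hU], fun h => by
      have : U (U (U z)) = U x := by rw [h]
      rw [hU] at this; rw [this]⟩
  have h3 : (U (U z) = U (U x)) = (z = x) := propext
    ⟨fun h => U.injective (U.injective h), fun h => by rw [h]⟩
  unfold Nfun
  simp only [h1, h2, h3]
  ring

omit [Fintype X] in
theorem estar_face (y z : X) :
    estar S y z + estar S y (U z) + estar S y (U (U z)) = Nfun U y z - Nfun U (S y) z := by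
  unfold estar Nfun; ring

omit [Fintype X] in
theorem estar_S (hS : ∀ x, S (S x) = x) (y z : X) : estar S y (S z) = - estar S y z := by
  have h1 : (S z = y) = (z = S y) := propext
    ⟨fun h => by rw [← h, hS], fun h => by rw [h, hS]⟩
  have h2 : (S z = S y) = (z = y) := propext ⟨fun h => S.injective h, fun h => by rw [h]⟩
  unfold estar
  simp only [h1, h2]
  ring

/-- One step of a walk: `true` is a rotation at the vertex, `false` traverses the edge. -/
def step (c : Bool) (x : X) : X := if c then rho S U x else S x

/-- The endpoint of a walk. -/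
def endpt : List Bool → X → X
  | [], x => x
  | c :: w, x => endpt w (step S U c x)

/-- The period of `a` along a walk. -/
def per (a : X → ℤ) : List Bool → X → ℤ
  | [], _ => 0
  | c :: w, x => (if c then 0 else a x) + per a w (step S U c x)

/-- (Twice) the Poincare dual cochain of a walk. -/
def dual : List Bool → X → (X → ℤ)
  | [], _ => 0
  | c :: w, x => (if c then estar S x + estar S (rho S U x) else 0) + dual w (step S U c x)

theorem Q3_dual (hS : ∀ x, S (S x) = x) (hU : ∀ x, U (U (U x)) = x)
    (a : X → ℤ) (ha : IsCocycle S U a) (w : List Bool) (x : X) :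
    Q3 U a (dual S U w x) + 12 * per S U a w x
      = psi S U a (endpt S U w x) - psi S U a x := by
  induction w generalizing x with
  | nil => simp [dual, per, endpt, Q3_zero_right]
  | cons c w ih =>
    simp only [dual, per, endpt, Q3_add_right]
    have := ih (step S U c x)
    cases c
    · have h2 := psi_S S U hS a ha x
      simp only [step, Bool.false_eq_true, if_false, Q3_zero_right] at this ⊢
      linear_combination this - h2
    · have h2 := Q3_estar_rho S U hS hU a ha x
      simp only [step, if_true] at this ⊢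
      linear_combination this + h2

omit [Fintype X] in
theorem dual_S (hS : ∀ x, S (S x) = x) (w : List Bool) (x z : X) :
    dual S U w x (S z) = - dual S U w x z := by
  induction w generalizing x with
  | nil => simp [dual]
  | cons c w ih =>
    simp only [dual, Pi.add_apply, ih]
    cases c
    · simp
    · simp only [if_true, Pi.add_apply, estar_S S hS]; ring

omit [Fintype X] in
theorem dual_face (hS : ∀ x, S (S x) = x) (hU : ∀ x, U (U (U x)) = x) (w : List Bool) (x z : X) :
    dual S U w x z + dual S U w x (U z) + dual S U w x (U (U z))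
      = (Nfun U (endpt S U w x) z + Nfun U (S (endpt S U w x)) z) - (Nfun U x z + Nfun U (S x) z) := by
  induction w generalizing x with
  | nil => simp [dual, endpt]
  | cons c w ih =>
    simp only [dual, endpt, Pi.add_apply]
    have := ih (step S U c x)
    cases c
    · simp only [step, Bool.false_eq_true, if_false, Pi.zero_apply, hS] at this ⊢
      linear_combination this
    · have e1 := estar_face S U x z
      have e2 := estar_face S U (rho S U x) z
      have e3 := Nfun_UU U hU x z
      have e4 : S (rho S U x) = U (U x) := by rw [rho_apply, hS]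
      rw [e4] at e2
      simp only [step, if_true, Pi.add_apply, e4] at this ⊢
      linear_combination this + e1 + e2 - 2 * e3

omit [Fintype X] in
/-- The dual cochain of a closed walk is a cocycle. -/
theorem isCocycle_dual (hS : ∀ x, S (S x) = x) (hU : ∀ x, U (U (U x)) = x)
    (w : List Bool) (x : X) (hw : endpt S U w x = x) : IsCocycle S U (dual S U w x) := by
  refine ⟨fun z => dual_S S U hS w x z, fun z => ?_⟩
  rw [dual_face S U hS hU, hw]; ring

/-- Key identity: pairing with the dual cochain of a closed walk computes the period. -/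
theorem Q3_dual_closed (hS : ∀ x, S (S x) = x) (hU : ∀ x, U (U (U x)) = x)
    (a : X → ℤ) (ha : IsCocycle S U a) (w : List Bool) (x : X) (hw : endpt S U w x = x) :
    Q3 U a (dual S U w x) = -12 * per S U a w x := by
  have := Q3_dual S U hS hU a ha w x
  rw [hw] at this
  linear_combination this

end dual

section main

variable (S U : Equiv.Perm X)

omit [Fintype X] [DecidableEq X] in
theorem endpt_append (w w' : List Bool) (x : X) :
    endpt S U (w ++ w') x = endpt S U w' (endpt S U w x) := by
  induction w generalizing x with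
  | nil => rfl
  | cons c w ih => simp only [List.cons_append, endpt, ih]

omit [Fintype X] [DecidableEq X] in
theorem per_append (a : X → ℤ) (w w' : List Bool) (x : X) :
    per S U a (w ++ w') x = per S U a w x + per S U a w' (endpt S U w x) := by
  induction w generalizing x with
  | nil => simp [per, endpt]
  | cons c w ih => simp only [List.cons_append, per, endpt, ih]; ring

/-- Reachability by walks. -/
def Reach (x y : X) : Prop := ∃ w, endpt S U w x = y

omit [Fintype X] [DecidableEq X] in
theorem reach_refl (x : X) : Reach S U x x := ⟨[], rfl⟩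

omit [Fintype X] [DecidableEq X] in
theorem reach_trans {x y z : X} (h1 : Reach S U x y) (h2 : Reach S U y z) : Reach S U x z := by
  obtain ⟨w, hw⟩ := h1
  obtain ⟨w', hw'⟩ := h2
  exact ⟨w ++ w', by rw [endpt_append, hw, hw']⟩

omit [Fintype X] [DecidableEq X] in
theorem endpt_replicate_true (k : ℕ) (x : X) :
    endpt S U (List.replicate k true) x = ((rho S U) ^ k) x := by
  induction k generalizing x with
  | zero => rfl
  | succ k ih =>
    simp only [List.replicate_succ, endpt, step, if_true, ih, pow_succ, Equiv.Perm.mul_apply]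

omit [DecidableEq X] in
theorem reach_step_symm (hS : ∀ x, S (S x) = x) (c : Bool) (x : X) :
    Reach S U (step S U c x) x := by
  cases c
  · exact ⟨[false], by simp [endpt, step, hS]⟩
  · refine ⟨List.replicate (orderOf (rho S U) - 1) true, ?_⟩
    rw [endpt_replicate_true]
    simp only [step, if_true]
    rw [← Equiv.Perm.mul_apply, ← pow_succ,
      Nat.sub_add_cancel (orderOf_pos (rho S U)), pow_orderOf_eq_one]
    rfl

omit [DecidableEq X] in
theorem reach_symm (hS : ∀ x, S (S x) = x) {x y : X} (h : Reach S U x y) : Reach S U y x := by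
  obtain ⟨w, hw⟩ := h
  induction w generalizing x with
  | nil => exact ⟨[], by simpa [endpt] using hw.symm⟩
  | cons c w ih =>
    exact reach_trans S U (ih (x := step S U c x) hw) (reach_step_symm S U hS c x)

/-- **Non-degeneracy** of the pairing `Q3 / 3` on cocycles modulo coboundaries, modulo any odd
`n`: a cocycle `a` with `3 n ∣ Q3 a b` for every cocycle `b` is a coboundary modulo `n`. -/
theorem nondeg_Q3 (hS : ∀ x, S (S x) = x) (hU : ∀ x, U (U (U x)) = x) (n : ℕ) (hn : Odd n)
    (a : X → ℤ) (ha : IsCocycle S U a)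
    (h : ∀ b, IsCocycle S U b → ((3 * n : ℕ) : ℤ) ∣ Q3 U a b) :
    ∃ u a' : X → ℤ, (∀ x, u (rho S U x) = u x) ∧ IsCocycle S U a' ∧
      ∀ x, a x = dlt S u x + n * a' x := by
  have hn0 : (n : ℤ) ≠ 0 := by
    have : n ≠ 0 := fun h0 => by subst h0; exact absurd hn (by decide)
    exact_mod_cast this
  -- periods along closed walks vanish modulo `n`
  have hclosed : ∀ x w, endpt S U w x = x → (n : ℤ) ∣ per S U a w x := by
    intro x w hw
    have h1 := h _ (isCocycle_dual S U hS hU w x hw)
    rw [Q3_dual_closed S U hS hU a ha w x hw] at h1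
    have h2 : (n : ℤ) ∣ 4 * per S U a w x := by
      obtain ⟨k, hk⟩ := h1
      refine ⟨-k, ?_⟩
      push_cast at hk
      linarith
    have hc : IsCoprime (n : ℤ) ((4 : ℕ) : ℤ) := by
      rw [Nat.isCoprime_iff_coprime]
      have h2 : Nat.Coprime n 2 := Nat.coprime_two_right.mpr hn
      exact Nat.Coprime.mul_right h2 h2
    exact hc.dvd_of_dvd_mul_left (by simpa using h2)
  -- path independence
  have hind : ∀ o x w w', endpt S U w o = x → endpt S U w' o = x →
      (n : ℤ) ∣ per S U a w o - per S U a w' o := by
    intro o x w w' hw hw'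
    obtain ⟨r, hr⟩ := reach_symm S U hS ⟨w, hw⟩
    have c1 := hclosed o (w ++ r) (by rw [endpt_append, hw, hr])
    have c2 := hclosed o (w' ++ r) (by rw [endpt_append, hw', hr])
    rw [per_append, hw] at c1
    rw [per_append, hw'] at c2
    have := dvd_sub c1 c2
    simpa using this
  -- base points and chosen walks
  let st : Setoid X := ⟨Reach S U, ⟨reach_refl S U, fun h => reach_symm S U hS h,
    fun h1 h2 => reach_trans S U h1 h2⟩⟩
  let base : X → X := fun x => (Quotient.mk st x).out
  have hbase : ∀ x, Reach S U (base x) x := fun x => Quotient.mk_out (s := st) x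
  have hbase_eq : ∀ x y, Reach S U x y → base x = base y := fun x y hxy =>
    congrArg Quotient.out (Quotient.sound (s := st) hxy)
  choose wk hwk using hbase
  let u0 : X → ℤ := fun x => per S U a (wk x) (base x)
  have hu0_rho : ∀ x, (n : ℤ) ∣ u0 (rho S U x) - u0 x := by
    intro x
    have hb : base (rho S U x) = base x := (hbase_eq x (rho S U x) ⟨[true], rfl⟩).symm
    have h2 := hwk (rho S U x)
    show (n : ℤ) ∣ per S U a (wk (rho S U x)) (base (rho S U x)) - per S U a (wk x) (base x)
    rw [hb] at h2 ⊢
    have h3 := hind (base x) (rho S U x) (wk (rho S U x)) (wk x ++ [true]) h2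
      (by rw [endpt_append, hwk x]; rfl)
    rw [per_append] at h3
    simpa [per] using h3
  have hu0_S : ∀ x, (n : ℤ) ∣ u0 (S x) - u0 x - a x := by
    intro x
    have hb : base (S x) = base x := (hbase_eq x (S x) ⟨[false], rfl⟩).symm
    have h2 := hwk (S x)
    show (n : ℤ) ∣ per S U a (wk (S x)) (base (S x)) - per S U a (wk x) (base x) - a x
    rw [hb] at h2 ⊢
    have h3 := hind (base x) (S x) (wk (S x)) (wk x ++ [false]) h2
      (by rw [endpt_append, hwk x]; rfl)
    rw [per_append, hwk x] at h3
    simpa [per, sub_sub] using h3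
  -- the vertex function
  let u : X → ℤ := fun x => u0 x % n
  have hu : ∀ x, u (rho S U x) = u x := fun x =>
    Int.emod_eq_emod_iff_emod_sub_eq_zero.mpr (Int.emod_eq_zero_of_dvd (hu0_rho x))
  have hdiv : ∀ x, (n : ℤ) ∣ a x - dlt S u x := by
    intro x
    obtain ⟨k, hk⟩ := hu0_S x
    refine ⟨-k + u0 (S x) / n - u0 x / n, ?_⟩
    have e1 := Int.emod_add_mul_ediv (u0 (S x)) n
    have e2 := Int.emod_add_mul_ediv (u0 x) n
    simp only [dlt, u]
    linear_combination -hk - e1 + e2
  let a' : X → ℤ := fun x => (a x - dlt S u x) / n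
  have ha' : ∀ x, a x - dlt S u x = n * a' x := fun x => (Int.mul_ediv_cancel' (hdiv x)).symm
  have hd := isCocycle_dlt S U hS hU u hu
  refine ⟨u, a', hu, ⟨fun x => ?_, fun x => ?_⟩, fun x => by linear_combination ha' x⟩
  · apply mul_left_cancel₀ hn0
    linear_combination ha.1 x - hd.1 x - ha' (S x) - ha' x
  · apply mul_left_cancel₀ hn0
    linear_combination ha.2 x - hd.2 x - ha' x - ha' (U x) - ha' (U (U x))

end main

section descend

variable (S U : Equiv.Perm X)

omit [DecidableEq X] in
/-- The pairing kills coboundaries (so it descends to cocycles modulo coboundaries). -/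
theorem Q3_dlt (hS : ∀ x, S (S x) = x) (hU : ∀ x, U (U (U x)) = x)
    (a : X → ℤ) (ha : IsCocycle S U a) (u : X → ℤ) (hu : ∀ x, u (rho S U x) = u x) :
    Q3 U a (dlt S u) = 0 := by
  rw [Q3_eq_sum_gfun U hU]
  simp only [dlt, sub_mul, Finset.sum_sub_distrib]
  -- reindex the first sum by `S`
  have h1 : ∑ y, u (S y) * gfun U a y = ∑ y, u y * gfun U a (S y) := by
    rw [← Equiv.sum_comp S (fun y => u y * gfun U a (S y))]
    refine Finset.sum_congr rfl fun y _ => ?_
    simp only [hS]
  rw [h1, ← Finset.sum_sub_distrib]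
  -- `g (S y) - g y = -2 (a (U (S y)) + a (U (U y)))`
  have h2 : ∀ y, u y * gfun U a (S y) - u y * gfun U a y
      = 2 * (u y * a (S (U (U y)))) - 2 * (u y * a (U (S y))) := by
    intro y
    have c1 := ha.2 y
    have c2 := ha.2 (S y)
    have s1 := ha.1 y
    have s2 := ha.1 (U (U y))
    simp only [gfun]
    linear_combination (u y) * c1 + (u y) * c2 - (u y) * s1 - 2 * (u y) * s2
  simp only [h2, Finset.sum_sub_distrib, ← Finset.mul_sum]
  -- reindex: `∑ u y * a (rho y) = ∑ u (rho⁻¹ y) a y`, and `u` is `rho`-invariant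
  have h3 : ∑ y, u y * a (S (U (U y))) = ∑ y, u y * a y := by
    rw [← Equiv.sum_comp (rho S U) (fun y => u y * a y)]
    refine Finset.sum_congr rfl fun y _ => ?_
    rw [hu y]; rfl
  have h4 : ∑ y, u y * a (U (S y)) = ∑ y, u y * a y := by
    rw [← Equiv.sum_comp (rho S U) (fun y => u y * a (U (S y)))]
    refine Finset.sum_congr rfl fun y _ => ?_
    rw [hu y, rho_apply, hS, hU]
  rw [h3, h4]; ring

end descend

end Fermat.Agent.GM.PD.DualCocycle
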