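/-
GATE-M (S41), leaf S41-D1A-FAREY (helper60): the core of Manin's presentation of the modular
symbols, WITHOUT a presentation of `PSL(2,ℤ)`.

A function `a : SL(2,ℤ) → A` (think: the value of a modular symbol on the Farey edge
`g{0,∞}`) satisfying the 2-term relation `a (g S) = - a g` and the 3-term (triangle) relation
has a POTENTIAL `F : SL(2,ℤ) → A` on the Farey vertices `P¹(ℚ) = G/⟨±T⟩`:
`F (g T) = F g`, `F (-g) = F g`, `F g - F (g S) = a g`.

Proof: Euclid / Farey-parent recursion on the bottom row `(c,d)` of `g`.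
Mathlib only.
-/
import Mathlib

open Matrix Matrix.SpecialLinearGroup ModularGroup
open scoped MatrixGroups

namespace Fermat.Agent.GM.PD.Farey

/-! ### Entries of products -/

theorem mul_T_zpow_10 (g : SL(2,ℤ)) (k : ℤ) : (g * T ^ k) 1 0 = g 1 0 := by
  simp [coe_mul, coe_T_zpow, Matrix.mul_apply, Fin.sum_univ_two]

theorem mul_T_zpow_11 (g : SL(2,ℤ)) (k : ℤ) : (g * T ^ k) 1 1 = g 1 1 + k * g 1 0 := by
  simp [coe_mul, coe_T_zpow, Matrix.mul_apply, Fin.sum_univ_two]
  ring

theorem mul_T_10 (g : SL(2,ℤ)) : (g * T) 1 0 = g 1 0 := by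
  simp [coe_mul, coe_T, Matrix.mul_apply, Fin.sum_univ_two]

theorem mul_T_11 (g : SL(2,ℤ)) : (g * T) 1 1 = g 1 1 + g 1 0 := by
  simp [coe_mul, coe_T, Matrix.mul_apply, Fin.sum_univ_two]
  ring

theorem mul_S_10 (g : SL(2,ℤ)) : (g * S) 1 0 = g 1 1 := by
  simp [coe_mul, coe_S, Matrix.mul_apply, Fin.sum_univ_two]

theorem mul_S_11 (g : SL(2,ℤ)) : (g * S) 1 1 = - g 1 0 := by
  simp [coe_mul, coe_S, Matrix.mul_apply, Fin.sum_univ_two]

theorem neg_10 (g : SL(2,ℤ)) : (-g) 1 0 = - g 1 0 := by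
  simp

theorem neg_11 (g : SL(2,ℤ)) : (-g) 1 1 = - g 1 1 := by
  simp

theorem S_mul_S : (S * S : SL(2,ℤ)) = -1 := by
  ext i j
  fin_cases i <;> fin_cases j <;> simp [coe_mul, coe_S, coe_neg, Matrix.mul_apply, Fin.sum_univ_two]

theorem mul_S_mul_S (g : SL(2,ℤ)) : g * S * S = -g := by
  rw [mul_assoc, S_mul_S]
  ext i j
  simp

/-- `T S T S = S T⁻¹` (exactly, in `SL(2,ℤ)`). -/
theorem TSTS : (T * S * T * S : SL(2,ℤ)) = S * T⁻¹ := by
  have h : (T⁻¹ : SL(2,ℤ)) = T ^ (-1 : ℤ) := by simp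
  rw [h]
  ext i j
  fin_cases i <;> fin_cases j <;>
    simp [coe_mul, coe_S, coe_T, Matrix.mul_apply, Fin.sum_univ_two]

theorem det_eq (g : SL(2,ℤ)) : g 0 0 * g 1 1 - g 0 1 * g 1 0 = 1 := by
  have := g.det_coe
  rwa [Matrix.det_fin_two] at this

theorem bottom_ne_zero_of_left (g : SL(2,ℤ)) (h : g 1 0 = 0) : g 1 1 ≠ 0 := by
  intro h1
  have := det_eq g
  rw [h, h1] at this
  simp at this

theorem bottom_ne_zero_of_right (g : SL(2,ℤ)) (h : g 1 1 = 0) : g 1 0 ≠ 0 := by
  intro h1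
  have := det_eq g
  rw [h, h1] at this
  simp at this

/-- bottom row entries with equal absolute value are `±1`-related only if they are units:
`|c| = |d|` forces `|c| = 1`; we only need: `d = c → …` handled through `gS`. -/
theorem isCoprime_bottom (g : SL(2,ℤ)) : IsCoprime (g 1 0) (g 1 1) :=
  ⟨- g 0 1, g 0 0, by have := det_eq g; linarith⟩

/-! ### The Euclid step -/

/-- the exponent of `T` bringing the second bottom entry into the window between `0` and `c`. -/
def kap (g : SL(2,ℤ)) : ℤ := - (g 1 1).fdiv (g 1 0)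

theorem natAbs_fmod_lt (d c : ℤ) (hc : c ≠ 0) : (d.fmod c).natAbs < c.natAbs := by
  rcases lt_or_gt_of_ne hc with h | h
  · -- c < 0
    have h1 : d.fmod c = - ((-d).fmod (-c)) := by
      rw [Int.fmod_def, Int.fmod_def, Int.neg_fdiv_neg]; ring
    have hpos : 0 < -c := by omega
    have h2 := Int.fmod_nonneg_of_pos (-d) hpos
    have h3 := Int.fmod_lt_of_pos (-d) hpos
    rw [h1]
    omega
  · have h2 := Int.fmod_nonneg_of_pos d h
    have h3 := Int.fmod_lt_of_pos d h
    omega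

theorem step_10 (g : SL(2,ℤ)) : (g * T ^ kap g * S) 1 0 = (g 1 1).fmod (g 1 0) := by
  rw [mul_S_10, mul_T_zpow_11, kap, Int.fmod_def]
  ring

theorem kap_mul_T (g : SL(2,ℤ)) (h : g 1 0 ≠ 0) : kap (g * T) = kap g - 1 := by
  unfold kap
  rw [mul_T_10, mul_T_11]
  have := Int.add_mul_fdiv_right (g 1 1) 1 h
  rw [one_mul] at this
  rw [this]
  ring

theorem kap_neg (g : SL(2,ℤ)) : kap (-g) = kap g := by
  unfold kap
  rw [neg_10, neg_11, Int.neg_fdiv_neg]

theorem kap_eq_zero (g : SL(2,ℤ)) (h : (0 ≤ g 1 1 ∧ g 1 1 < g 1 0) ∨ (g 1 0 < g 1 1 ∧ g 1 1 ≤ 0)) :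
    kap g = 0 := by
  unfold kap
  rcases h with ⟨h1, h2⟩ | ⟨h1, h2⟩
  · rw [Int.fdiv_eq_zero_of_lt h1 h2]; rfl
  · have : (-(g 1 1)).fdiv (-(g 1 0)) = 0 := Int.fdiv_eq_zero_of_lt (by omega) (by omega)
    rw [Int.neg_fdiv_neg] at this
    rw [this]; rfl

theorem kap_eq_one (g : SL(2,ℤ))
    (h : (- g 1 0 ≤ g 1 1 ∧ g 1 1 < 0) ∨ (0 < g 1 1 ∧ g 1 1 ≤ - g 1 0)) : kap g = 1 := by
  unfold kap
  have key : ∀ c d : ℤ, -c ≤ d → d < 0 → d.fdiv c = -1 := by
    intro c d h1 h2
    have hc : c ≠ 0 := by omega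
    have h3 := Int.add_mul_fdiv_right (d + c) (-1) hc
    have h4 : (d + c).fdiv c = 0 := Int.fdiv_eq_zero_of_lt (by omega) (by omega)
    rw [h4] at h3
    have h5 : d + c + -1 * c = d := by ring
    rw [h5] at h3
    rw [h3]; rfl
  rcases h with ⟨h1, h2⟩ | ⟨h1, h2⟩
  · rw [key _ _ h1 h2]; rfl
  · have := key (-(g 1 0)) (-(g 1 1)) (by omega) (by omega)
    rw [Int.neg_fdiv_neg] at this
    rw [this]; rfl

/-! ### The potential -/

variable {A : Type*} [AddCommGroup A]

/-- The Farey potential of `a`, normalised by `pot a g = 0` when `g∞ = ∞`. -/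
noncomputable def pot (a : SL(2,ℤ) → A) (g : SL(2,ℤ)) : A :=
  if _h : g 1 0 = 0 then 0
  else pot a (g * T ^ kap g * S) + a (g * T ^ kap g)
termination_by (g 1 0).natAbs
decreasing_by
  rw [step_10]
  exact natAbs_fmod_lt _ _ _h

theorem pot_of_eq_zero (a : SL(2,ℤ) → A) {g : SL(2,ℤ)} (h : g 1 0 = 0) : pot a g = 0 := by
  rw [pot, dif_pos h]

theorem pot_of_ne_zero (a : SL(2,ℤ) → A) {g : SL(2,ℤ)} (h : g 1 0 ≠ 0) :
    pot a g = pot a (g * T ^ kap g * S) + a (g * T ^ kap g) := by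
  rw [pot, dif_neg h]

theorem pot_one (a : SL(2,ℤ) → A) : pot a 1 = 0 :=
  pot_of_eq_zero a (by simp)

/-- `pot` is invariant under right multiplication by `T`. -/
theorem pot_mul_T (a : SL(2,ℤ) → A) (g : SL(2,ℤ)) : pot a (g * T) = pot a g := by
  by_cases h : g 1 0 = 0
  · rw [pot_of_eq_zero a h, pot_of_eq_zero a (by rw [mul_T_10]; exact h)]
  · have h' : (g * T) 1 0 ≠ 0 := by rw [mul_T_10]; exact h
    rw [pot_of_ne_zero a h, pot_of_ne_zero a h', kap_mul_T g h]
    have : g * T * T ^ (kap g - 1) = g * T ^ kap g := by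
      rw [mul_assoc, ← _root_.zpow_one_add]
      congr 2
      ring
    rw [this]

theorem pot_mul_T_inv (a : SL(2,ℤ) → A) (g : SL(2,ℤ)) : pot a (g * T⁻¹) = pot a g := by
  have := pot_mul_T a (g * T⁻¹)
  rw [inv_mul_cancel_right] at this
  exact this.symm

theorem pot_mul_T_zpow (a : SL(2,ℤ) → A) (g : SL(2,ℤ)) (k : ℤ) : pot a (g * T ^ k) = pot a g := by
  induction k using Int.induction_on with
  | zero => simp
  | succ n ih =>
    rw [_root_.zpow_add_one, ← mul_assoc, pot_mul_T, ih]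
  | pred n ih =>
    rw [_root_.zpow_sub_one, ← mul_assoc, pot_mul_T_inv, ih]

/-- `pot` is even, provided `a` is. -/
theorem pot_neg (a : SL(2,ℤ) → A) (ha : ∀ g, a (-g) = a g) (g : SL(2,ℤ)) :
    pot a (-g) = pot a g := by
  induction hn : (g 1 0).natAbs using Nat.strong_induction_on generalizing g with
  | _ n ih =>
    by_cases h : g 1 0 = 0
    · rw [pot_of_eq_zero a h, pot_of_eq_zero a (by rw [neg_10, h, neg_zero])]
    · have h' : (-g) 1 0 ≠ 0 := by rw [neg_10]; simpa using h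
      rw [pot_of_ne_zero a h, pot_of_ne_zero a h', kap_neg]
      have e1 : -g * T ^ kap g * S = -(g * T ^ kap g * S) := by simp
      have e2 : -g * T ^ kap g = -(g * T ^ kap g) := by simp
      rw [e1, e2, ha]
      congr 1
      refine ih _ ?_ _ rfl
      rw [← hn, step_10]
      exact natAbs_fmod_lt _ _ h

/-! ### The main theorem -/

section Main

variable (a : SL(2,ℤ) → A)

theorem a_neg (hS : ∀ g, a (g * S) = - a g) (g : SL(2,ℤ)) : a (-g) = a g := by
  rw [← mul_S_mul_S, hS, hS, neg_neg]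

/-- The potential property at `g`. -/
def P (g : SL(2,ℤ)) : Prop := pot a g - pot a (g * S) = a g

variable {a}

theorem P_mul_S_iff (hS : ∀ g, a (g * S) = - a g) (g : SL(2,ℤ)) : P a (g * S) ↔ P a g := by
  unfold P
  rw [mul_S_mul_S, pot_neg a (a_neg a hS), hS]
  constructor
  · intro h
    have : pot a g - pot a (g * S) = - (pot a (g * S) - pot a g) := by abel
    rw [this, h, neg_neg]
  · intro h
    have : pot a (g * S) - pot a g = - (pot a g - pot a (g * S)) := by abel
    rw [this, h]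

theorem P_neg_iff (hS : ∀ g, a (g * S) = - a g) (g : SL(2,ℤ)) : P a (-g) ↔ P a g := by
  unfold P
  have e : -g * S = -(g * S) := by simp
  rw [e, pot_neg a (a_neg a hS), pot_neg a (a_neg a hS), a_neg a hS]

theorem P_of_kap_zero {g : SL(2,ℤ)} (h : g 1 0 ≠ 0) (hk : kap g = 0) : P a g := by
  unfold P
  rw [pot_of_ne_zero a h, hk]
  simp

theorem P_of_left_eq_zero (hS : ∀ g, a (g * S) = - a g) {g : SL(2,ℤ)} (h : g 1 0 = 0) :
    P a g := by
  rw [← P_mul_S_iff hS]
  have hd := bottom_ne_zero_of_left g h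
  apply P_of_kap_zero
  · rw [mul_S_10]; exact hd
  · apply kap_eq_zero
    rw [mul_S_10, mul_S_11, h]
    rcases lt_or_gt_of_ne hd with h1 | h1
    · right; omega
    · left; omega

theorem P_of_kap_one (htri : ∀ g, a g = a (g * T) + a (g * (T * S * T)))
    {g : SL(2,ℤ)} (h : g 1 0 ≠ 0) (hk : kap g = 1) (hL : P a (g * (T * S * T))) : P a g := by
  unfold P at hL ⊢
  have e1 : g * (T * S * T) = g * T * S * T := by simp only [mul_assoc]
  have e2 : g * (T * S * T) * S = g * S * T⁻¹ := by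
    rw [mul_assoc g, TSTS, mul_assoc]
  have e3 : pot a (g * (T * S * T)) = pot a (g * T * S) := by rw [e1, pot_mul_T]
  rw [e2, pot_mul_T_inv, e3] at hL
  rw [pot_of_ne_zero a h, hk, zpow_one, htri g, ← hL]
  abel

theorem mul_L_10 (g : SL(2,ℤ)) : (g * (T * S * T)) 1 0 = g 1 0 + g 1 1 := by
  simp [coe_mul, coe_S, coe_T, Matrix.mul_apply, Fin.sum_univ_two]

theorem mul_L_11 (g : SL(2,ℤ)) : (g * (T * S * T)) 1 1 = g 1 1 := by
  simp [coe_mul, coe_S, coe_T, Matrix.mul_apply, Fin.sum_univ_two]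

/-- the measure of the induction -/
def ht (g : SL(2,ℤ)) : ℕ := max (g 1 0).natAbs (g 1 1).natAbs

theorem ht_neg (g : SL(2,ℤ)) : ht (-g) = ht g := by
  unfold ht; rw [neg_10, neg_11, Int.natAbs_neg, Int.natAbs_neg]

theorem ht_mul_S (g : SL(2,ℤ)) : ht (g * S) = ht g := by
  unfold ht; rw [mul_S_10, mul_S_11, Int.natAbs_neg, max_comm]

theorem P_all (hS : ∀ g, a (g * S) = - a g)
    (htri : ∀ g, a g = a (g * T) + a (g * (T * S * T))) (g : SL(2,ℤ)) : P a g := by
  induction hn : ht g using Nat.strong_induction_on generalizing g with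
  | _ n ih =>
    -- the core case
    have key : ∀ h : SL(2,ℤ), ht h = n → 0 < h 1 0 → - h 1 0 ≤ h 1 1 → h 1 1 < h 1 0 →
        h 1 1 ≠ 0 → P a h := by
      intro h hh hc h1 h2 hd
      rcases lt_or_gt_of_ne hd with hneg | hpos
      · -- opposite signs
        apply P_of_kap_one htri hc.ne' (kap_eq_one h (Or.inl ⟨h1, hneg⟩))
        by_cases h0 : h 1 0 + h 1 1 = 0
        · exact P_of_left_eq_zero hS (by rw [mul_L_10]; exact h0)
        · refine ih (ht (h * (T * S * T))) ?_ _ rfl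
          rw [← hh]
          unfold ht
          rw [mul_L_10, mul_L_11]
          omega
      · exact P_of_kap_zero hc.ne' (kap_eq_zero h (Or.inl ⟨hpos.le, h2⟩))
    by_cases hc : g 1 0 = 0
    · exact P_of_left_eq_zero hS hc
    by_cases hd : g 1 1 = 0
    · rw [← P_mul_S_iff hS]
      exact P_of_left_eq_zero hS (by rw [mul_S_10]; exact hd)
    by_cases c1 : 0 < g 1 0 ∧ - g 1 0 ≤ g 1 1 ∧ g 1 1 < g 1 0
    · exact key g hn c1.1 c1.2.1 c1.2.2 hd
    by_cases c2 : 0 < - g 1 0 ∧ g 1 0 ≤ - g 1 1 ∧ - g 1 1 < - g 1 0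
    · rw [← P_neg_iff hS]
      refine key (-g) (by rw [ht_neg, hn]) ?_ ?_ ?_ ?_
      · rw [neg_10]; exact c2.1
      · rw [neg_10, neg_11, neg_neg]; exact c2.2.1
      · rw [neg_10, neg_11]; exact c2.2.2
      · rw [neg_11]; simpa using hd
    by_cases c3 : 0 < g 1 1 ∧ - g 1 1 ≤ - g 1 0 ∧ - g 1 0 < g 1 1
    · rw [← P_mul_S_iff hS]
      refine key (g * S) (by rw [ht_mul_S, hn]) ?_ ?_ ?_ ?_
      · rw [mul_S_10]; exact c3.1
      · rw [mul_S_10, mul_S_11]; exact c3.2.1
      · rw [mul_S_10, mul_S_11]; exact c3.2.2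
      · rw [mul_S_11]; simpa using hc
    by_cases c4 : 0 < - g 1 1 ∧ g 1 1 ≤ g 1 0 ∧ g 1 0 < - g 1 1
    · rw [← P_mul_S_iff hS, ← P_neg_iff hS]
      refine key (-(g * S)) (by rw [ht_neg, ht_mul_S, hn]) ?_ ?_ ?_ ?_
      · rw [neg_10, mul_S_10]; exact c4.1
      · rw [neg_10, neg_11, mul_S_10, mul_S_11, neg_neg, neg_neg]; exact c4.2.1
      · rw [neg_10, neg_11, mul_S_10, mul_S_11, neg_neg]; exact c4.2.2
      · rw [neg_11, mul_S_11, neg_neg]; exact hc
    exfalso
    omega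

end Main

/-- **Farey potential** (triangle form).  A function on `SL(2,ℤ)` satisfying the 2-term relation
and the triangle relation `a g = a (g T) + a (g T S T)` (the three edges of the Farey triangle
`g{∞, 0, 1}`) has a potential on the Farey vertices. -/
theorem exists_potential_of_triangle (a : SL(2,ℤ) → A) (hS : ∀ g, a (g * S) = - a g)
    (htri : ∀ g, a g = a (g * T) + a (g * (T * S * T))) :
    ∃ F : SL(2,ℤ) → A, (∀ g, F (g * T) = F g) ∧ (∀ g, F (-g) = F g) ∧
      (∀ g, F g - F (g * S) = a g) ∧ F 1 = 0 :=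
  ⟨pot a, pot_mul_T a, pot_neg a (a_neg a hS), P_all hS htri, pot_one a⟩

/-- the triangle relation from the 3-term relation for `U = T S`. -/
theorem triangle_of_TS (a : SL(2,ℤ) → A) (hS : ∀ g, a (g * S) = - a g)
    (hU : ∀ g, a g + a (g * (T * S)) + a (g * (T * S) * (T * S)) = 0) (g : SL(2,ℤ)) :
    a g = a (g * T) + a (g * (T * S * T)) := by
  have h := hU g
  have e1 : g * (T * S) = g * T * S := by rw [mul_assoc]
  have e2 : g * T * S * (T * S) = g * (T * S * T) * S := by simp only [mul_assoc]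
  rw [e1, e2, hS, hS] at h
  have : a g = a (g * T) + a (g * (T * S * T)) + (a g + -a (g * T) + -a (g * (T * S * T))) := by
    abel
  rw [this, h, add_zero]

/-- the triangle relation from the 3-term relation for `U = S T`. -/
theorem triangle_of_ST (a : SL(2,ℤ) → A) (hS : ∀ g, a (g * S) = - a g)
    (hU : ∀ g, a g + a (g * (S * T)) + a (g * (S * T) * (S * T)) = 0) (g : SL(2,ℤ)) :
    a g = a (g * T) + a (g * (T * S * T)) := by
  have h := hU (g * T)
  have e1 : g * T * (S * T) = g * (T * S * T) := by simp only [mul_assoc]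
  have e2 : g * (T * S * T) * (S * T) = g * S := by
    have : (T * S * T * S * T : SL(2,ℤ)) = S := by
      rw [TSTS]; simp
    calc g * (T * S * T) * (S * T) = g * (T * S * T * S * T) := by simp only [mul_assoc]
      _ = g * S := by rw [this]
  rw [e1, e2, hS] at h
  have : a g = a (g * T) + a (g * (T * S * T)) - (a (g * T) + a (g * (T * S * T)) + -a g) := by
    abel
  rw [this, h, sub_zero]

/-- the canonical potential `pot a` of a symbol (`U = T S`). -/
theorem pot_sub_TS (a : SL(2,ℤ) → A) (hS : ∀ g, a (g * S) = - a g)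
    (hU : ∀ g, a g + a (g * (T * S)) + a (g * (T * S) * (T * S)) = 0) (g : SL(2,ℤ)) :
    pot a g - pot a (g * S) = a g :=
  P_all hS (triangle_of_TS a hS hU) g

/-- the canonical potential `pot a` of a symbol (`U = S T`). -/
theorem pot_sub_ST (a : SL(2,ℤ) → A) (hS : ∀ g, a (g * S) = - a g)
    (hU : ∀ g, a g + a (g * (S * T)) + a (g * (S * T) * (S * T)) = 0) (g : SL(2,ℤ)) :
    pot a g - pot a (g * S) = a g :=
  P_all hS (triangle_of_ST a hS hU) g

/-- **Farey potential**, 3-term relation for `U = T S` (`U³ = -1`). -/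
theorem exists_potential_TS (a : SL(2,ℤ) → A) (hS : ∀ g, a (g * S) = - a g)
    (hU : ∀ g, a g + a (g * (T * S)) + a (g * (T * S) * (T * S)) = 0) :
    ∃ F : SL(2,ℤ) → A, (∀ g, F (g * T) = F g) ∧ (∀ g, F (-g) = F g) ∧
      (∀ g, F g - F (g * S) = a g) ∧ F 1 = 0 :=
  exists_potential_of_triangle a hS (triangle_of_TS a hS hU)

/-- **Farey potential**, 3-term relation for `U = S T` (`U³ = -1`). -/
theorem exists_potential_ST (a : SL(2,ℤ) → A) (hS : ∀ g, a (g * S) = - a g)
    (hU : ∀ g, a g + a (g * (S * T)) + a (g * (S * T) * (S * T)) = 0) :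
    ∃ F : SL(2,ℤ) → A, (∀ g, F (g * T) = F g) ∧ (∀ g, F (-g) = F g) ∧
      (∀ g, F g - F (g * S) = a g) ∧ F 1 = 0 :=
  exists_potential_of_triangle a hS (triangle_of_ST a hS hU)

/-- Two potentials of the same symbol differ by a constant. -/
theorem potential_unique (a : SL(2,ℤ) → A) (F F' : SL(2,ℤ) → A)
    (hT : ∀ g, F (g * T) = F g) (hT' : ∀ g, F' (g * T) = F' g)
    (hF : ∀ g, F g - F (g * S) = a g) (hF' : ∀ g, F' g - F' (g * S) = a g) (g : SL(2,ℤ)) :
    F g - F' g = F 1 - F' 1 := by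
  set D : SL(2,ℤ) → A := fun g => F g - F' g with hD
  have hDT : ∀ g, D (g * T) = D g := fun g => by simp only [hD, hT, hT']
  have hDS : ∀ g, D (g * S) = D g := fun g => by
    have h1 := hF g
    have h2 := hF' g
    simp only [hD]
    have : F (g * S) - F' (g * S) = (F g - F' g) - ((F g - F (g * S)) - (F' g - F' (g * S))) := by
      abel
    rw [this, h1, h2, sub_self, sub_zero]
  -- the set of `h` with `D (g h) = D g` for all `g` is a subgroup containing `S`, `T`
  let H : Subgroup SL(2,ℤ) :=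
    { carrier := {h | ∀ g, D (g * h) = D g}
      one_mem' := fun g => by simp
      mul_mem' := fun {x y} hx hy g => by rw [← mul_assoc, hy, hx]
      inv_mem' := fun {x} hx g => by
        have := hx (g * x⁻¹)
        rw [inv_mul_cancel_right] at this
        exact this.symm }
  have hH : H = ⊤ := by
    rw [eq_top_iff, ← SpecialLinearGroup.SL2Z_generators, Subgroup.closure_le]
    rintro x (rfl | rfl)
    · exact hDS
    · exact hDT
  have : g ∈ H := by rw [hH]; trivial
  have h1 := this 1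
  rw [one_mul] at h1
  exact h1


end Fermat.Agent.GM.PD.Farey
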