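/-
GATE-M / (D1) (helper32): the LOCAL radical lemma for the Farey ("Manin") model of a finite-index
subgroup of `PSL₂(ℤ)`.

`X` a finite set, `σ τ : Equiv.Perm X` with `σ² = 1`, `τ³ = 1` (fixed points allowed: folded edges /
folded triangles), `ρ = σ ∘ τ` (its orbits are the faces = cusps).  Over a field `k` with `2 ≠ 0`
(characteristic `3` allowed):

* `IsCycle σ τ b`         : `b : X → k` is a `1`-cycle of the dessin
                            (`b ∘ σ = -b`, `τ`-orbit sums vanish, `b = 0` at `τ`-fixed points);
* `faceCycle τ φ`         : `φ - φ ∘ τ²`; for `φ` constant on `ρ`-orbits it is a cycle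
                            (`isCycle_faceCycle`) — the span of the face cycles;
* `exists_inv_decomp`     : a cochain `c` orthogonal to every cycle is `h - g` with `g ∘ σ = g`,
                            `h ∘ τ = h`     (`B^⊥ = V^σ + V^τ`, finite-dimensional duality);
* `corner_invariant`, `local_solve` : if `g ∘ σ = g` and `b' := g ∘ τ - g ∘ τ²` satisfies
                            `b' ∘ σ = -b'`, then `φ := (g + g ∘ τ - g ∘ τ²) / 2` is constant on
                            `ρ`-orbits, `g = φ + φ ∘ τ²` and `b' = φ - φ ∘ τ²`;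
* `IsTransversal τ R`     : `R` = one dart in every free `τ`-orbit (`exists_isTransversal`);
* `faceForm τ R b b'`     : `Σ_{r ∈ R} (b r * b' (τ r) - b (τ r) * b' r)`, skew (`faceForm_skew`);
                            on cycles `Σ_x (b x * b' (τ x) - b (τ x) * b' x) = 3 * faceForm`
                            (`sum_Q3_eq`), so `faceForm = Q3 / 3 = 2 ·` intersection form;
* `cochainRep τ R b'`     : the cochain with `Σ_x b x * cochainRep τ R b' x = faceForm τ R b b'`
                            (`sum_mul_cochainRep`);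
* `radical_subset_faces`  : **if `faceForm τ R b b' = 0` for every cycle `b` (and `b'` is a cycle),
                            then `b' = faceCycle τ φ` with `φ` constant on `ρ`-orbits.**
* `faces_subset_radical`  : conversely every such `faceCycle τ φ` pairs to zero with all cycles;
* `radical_iff_faces`     : both directions.

So the radical of the cup form on cycles is EXACTLY the span of the face cycles, over every field of
characteristic `≠ 2`; by rank count `im (H¹_c → H¹)` is saturated at every odd prime (`p = 3`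
included, whatever the elliptic points are).  Mathlib only.
-/
import Mathlib

set_option autoImplicit false

namespace Fermat.Agent.GM.PD.LocalRadical

open Finset

variable {X : Type*} {k : Type*} [Field k]

/-- `b : X → k` is a `1`-cycle of the dessin `(X; σ, τ)`. -/
structure IsCycle (σ τ : Equiv.Perm X) (b : X → k) : Prop where
  sig : ∀ x, b (σ x) = - b x
  tau : ∀ x, b x + b (τ x) + b (τ (τ x)) = 0
  fix : ∀ x, τ x = x → b x = 0

/-- the face-type cycle attached to a function `φ` (a function on faces when `φ ∘ ρ = φ`). -/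
def faceCycle (τ : Equiv.Perm X) (φ : X → k) : X → k := fun x => φ x - φ (τ (τ x))

section Basic

variable {σ τ : Equiv.Perm X} (hσ : ∀ x, σ (σ x) = x) (hτ : ∀ x, τ (τ (τ x)) = x)

include hσ hτ in
/-- face cycles are cycles. -/
theorem isCycle_faceCycle {φ : X → k} (hφ : ∀ x, φ (σ (τ x)) = φ x) :
    IsCycle σ τ (faceCycle τ φ) := by
  refine ⟨fun x => ?_, fun x => ?_, fun x hx => ?_⟩
  · -- `φ (σ x) = φ (τ² x)` and `φ (τ² σ x) = φ x`
    have h1 : φ (σ x) = φ (τ (τ x)) := by
      have := hφ (τ (τ x))
      rwa [hτ] at this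
    have h2 : φ (τ (τ (σ x))) = φ x := by
      have := hφ (τ (τ (σ x)))
      rw [hτ, hσ] at this
      exact this.symm
    simp only [faceCycle, h1, h2]
    ring
  · simp only [faceCycle, hτ]
    ring
  · simp only [faceCycle, hx, sub_self]

end Basic

section LocalSolve

variable {σ τ : Equiv.Perm X} (hσ : ∀ x, σ (σ x) = x) (hτ : ∀ x, τ (τ (τ x)) = x)
  (h2 : (2 : k) ≠ 0)

/-- the corner function of a `σ`-invariant edge function `g`. -/
def corner (τ : Equiv.Perm X) (g : X → k) : X → k :=
  fun x => (g x + g (τ x) - g (τ (τ x))) / 2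

include h2 hτ in
theorem corner_add (g : X → k) (x : X) :
    corner τ g x + corner τ g (τ (τ x)) = g x := by
  simp only [corner, hτ]
  field_simp
  ring

include h2 hτ in
theorem corner_sub (g : X → k) (x : X) :
    corner τ g x - corner τ g (τ (τ x)) = g (τ x) - g (τ (τ x)) := by
  simp only [corner, hτ]
  field_simp
  ring

include hτ in
/-- **the quadrilateral lemma**: if `b' = g ∘ τ - g ∘ τ²` is `σ`-antisymmetric (`g` being
`σ`-invariant), the corner function is constant along the faces. -/
theorem corner_invariant {g : X → k} (hg : ∀ x, g (σ x) = g x)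
    (hb : ∀ x, g (τ (σ x)) - g (τ (τ (σ x))) = - (g (τ x) - g (τ (τ x)))) (x : X) :
    corner τ g (σ (τ x)) = corner τ g x := by
  have key := hb (τ x)
  rw [hτ] at key
  simp only [corner]
  rw [hg (τ x)]
  have e : g (τ (σ (τ x))) - g (τ (τ (σ (τ x)))) = - (g (τ (τ x)) - g x) := key
  have : g (τ x) + g (τ (σ (τ x))) - g (τ (τ (σ (τ x)))) = g x + g (τ x) - g (τ (τ x)) := by
    linear_combination e
  rw [this]

include hτ h2 in
/-- **local solve**: a `σ`-antisymmetric `b' = g ∘ τ - g ∘ τ²` with `g` `σ`-invariant is a face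
cycle. -/
theorem local_solve {g b' : X → k} (hg : ∀ x, g (σ x) = g x)
    (hb' : ∀ x, b' x = g (τ x) - g (τ (τ x))) (hsig : ∀ x, b' (σ x) = - b' x) :
    (∀ x, corner τ g (σ (τ x)) = corner τ g x) ∧ b' = faceCycle τ (corner τ g) := by
  refine ⟨corner_invariant hτ hg (fun x => ?_), ?_⟩
  · rw [← hb', ← hb', hsig]
  · funext x
    rw [faceCycle, corner_sub hτ h2, hb']

end LocalSolve

section Duality

/-- the functions invariant under a permutation, as a subspace. -/
def invSub (k : Type*) [Field k] (π : Equiv.Perm X) : Submodule k (X → k) where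
  carrier := {g | ∀ x, g (π x) = g x}
  add_mem' := by
    intro a b ha hb x
    simp only [Pi.add_apply, ha x, hb x]
  zero_mem' := by
    intro x
    rfl
  smul_mem' := by
    intro c a ha x
    simp only [Pi.smul_apply, ha x]

theorem mem_invSub {π : Equiv.Perm X} {g : X → k} : g ∈ invSub k π ↔ ∀ x, g (π x) = g x :=
  Iff.rfl

variable [Fintype X] [DecidableEq X] {σ τ : Equiv.Perm X}
  (hσ : ∀ x, σ (σ x) = x) (hτ : ∀ x, τ (τ (τ x)) = x)

include hσ hτ in
/-- **`B^⊥ = V^σ + V^τ`**: a cochain orthogonal to all cycles is `h - g` with `g` `σ`-invariant and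
`h` `τ`-invariant. -/
theorem exists_inv_decomp {c : X → k}
    (hc : ∀ b : X → k, IsCycle σ τ b → ∑ x, b x * c x = 0) :
    ∃ g h : X → k, (∀ x, g (σ x) = g x) ∧ (∀ x, h (τ x) = h x) ∧ ∀ x, c x = h x - g x := by
  have hmem : c ∈ invSub k σ ⊔ invSub k τ := by
    rw [← Subspace.forall_mem_dualAnnihilator_apply_eq_zero_iff]
    intro φ hφ
    rw [Submodule.mem_dualAnnihilator] at hφ
    set b : X → k := fun x => φ (fun j => if x = j then 1 else 0) with hb
    have hsum : ∀ u : X → k, φ u = ∑ x, u x * b x := by
      intro u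
      rw [LinearMap.pi_apply_eq_sum_univ φ u]
      rfl
    have hcyc : IsCycle σ τ b := by
      refine ⟨fun x => ?_, fun x => ?_, fun x hx => ?_⟩
      · -- `δ_{σ x} + δ_x` is `σ`-invariant
        have h0 : φ ((fun j => if σ x = j then (1 : k) else 0) + fun j => if x = j then 1 else 0)
            = 0 := by
          apply hφ
          apply Submodule.mem_sup_left
          intro y
          have e1 : (σ x = σ y) ↔ (x = y) := σ.apply_eq_iff_eq
          have e2 : (x = σ y) ↔ (σ x = y) :=
            ⟨fun h => by rw [h, hσ], fun h => by rw [← h, hσ]⟩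
          simp only [Pi.add_apply, e1, e2]
          rw [add_comm]
        rw [map_add] at h0
        exact eq_neg_of_add_eq_zero_left h0
      · have h0 : φ (((fun j => if x = j then (1 : k) else 0)
            + fun j => if τ x = j then 1 else 0) + fun j => if τ (τ x) = j then 1 else 0) = 0 := by
          apply hφ
          apply Submodule.mem_sup_right
          intro y
          have e1 : (x = τ y) ↔ (τ (τ x) = y) :=
            ⟨fun h => by rw [h, hτ], fun h => by rw [← h, hτ]⟩
          have e2 : (τ x = τ y) ↔ (x = y) := τ.apply_eq_iff_eq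
          have e3 : (τ (τ x) = τ y) ↔ (τ x = y) := τ.apply_eq_iff_eq
          simp only [Pi.add_apply, e1, e2, e3]
          ring
        rw [map_add, map_add] at h0
        exact h0
      · apply hφ
        apply Submodule.mem_sup_right
        intro y
        have e1 : (x = τ y) ↔ (x = y) :=
          ⟨fun h => by
            have : τ x = τ y := by rw [hx]; exact h
            exact τ.injective this, fun h => by rw [← h, hx]⟩
        simp only [e1]
    rw [hsum c]
    have := hc b hcyc
    rw [← this]
    exact Finset.sum_congr rfl fun x _ => mul_comm _ _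
  obtain ⟨g', hg', h, hh, hgh⟩ := Submodule.mem_sup.mp hmem
  refine ⟨-g', h, fun x => ?_, hh, fun x => ?_⟩
  · simp only [Pi.neg_apply, hg' x]
  · rw [← hgh]
    simp only [Pi.add_apply, Pi.neg_apply]
    ring

end Duality

section FaceForm

variable [Fintype X] [DecidableEq X] {σ τ : Equiv.Perm X}
  (hσ : ∀ x, σ (σ x) = x) (hτ : ∀ x, τ (τ (τ x)) = x)

/-- `R` is a transversal of the free `τ`-orbits (one dart in every honest triangle). -/
structure IsTransversal (τ : Equiv.Perm X) (R : Finset X) : Prop where
  cover : ∀ x, τ x ≠ x → x ∈ R ∨ τ x ∈ R ∨ τ (τ x) ∈ R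
  notMem₁ : ∀ r ∈ R, τ r ∉ R
  notMem₂ : ∀ r ∈ R, τ (τ r) ∉ R

/-- the face-representative cup form `Σ_{triangles} (b(d) b'(τ d) - b(τ d) b'(d))`
(`= Q3 / 3`, `= 2 ·` the intersection form). -/
def faceForm (τ : Equiv.Perm X) (R : Finset X) (b b' : X → k) : k :=
  ∑ r ∈ R, (b r * b' (τ r) - b (τ r) * b' r)

omit [Fintype X] [DecidableEq X] in
theorem faceForm_skew (R : Finset X) (b b' : X → k) :
    faceForm τ R b b' = - faceForm τ R b' b := by
  rw [faceForm, faceForm, ← Finset.sum_neg_distrib]
  exact Finset.sum_congr rfl fun r _ => by ring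

/-- the cochain representing `faceForm τ R · b'`. -/
def cochainRep (τ : Equiv.Perm X) (R : Finset X) (b' : X → k) : X → k := fun x =>
  (if x ∈ R then b' (τ x) else 0) - (if τ (τ x) ∈ R then b' (τ (τ x)) else 0)

include hτ in
theorem sum_mul_cochainRep (R : Finset X) (b b' : X → k) :
    ∑ x, b x * cochainRep τ R b' x = faceForm τ R b b' := by
  have h1 : ∑ x, b x * (if x ∈ R then b' (τ x) else 0) = ∑ r ∈ R, b r * b' (τ r) := by
    rw [← Fintype.sum_ite_mem R (fun r => b r * b' (τ r))]
    exact Finset.sum_congr rfl fun x _ => by split_ifs <;> simp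
  have h2 : ∑ x, b x * (if τ (τ x) ∈ R then b' (τ (τ x)) else 0) = ∑ r ∈ R, b (τ r) * b' r := by
    rw [← Fintype.sum_ite_mem R (fun r => b (τ r) * b' r),
      ← Equiv.sum_comp τ (fun x => b x * (if τ (τ x) ∈ R then b' (τ (τ x)) else 0))]
    refine Finset.sum_congr rfl fun x _ => ?_
    simp only [hτ]
    split_ifs <;> simp
  simp only [cochainRep, mul_sub, Finset.sum_sub_distrib, h1, h2, faceForm]

include hσ hτ in
/-- **the radical of the cup form is contained in the span of the face cycles** (`2 ≠ 0` in `k`;
characteristic `3` and fixed points of `σ`, `τ` allowed). -/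
theorem radical_subset_faces (h2 : (2 : k) ≠ 0) {R : Finset X} (hT : IsTransversal τ R)
    {b' : X → k} (hb' : IsCycle σ τ b')
    (hrad : ∀ b : X → k, IsCycle σ τ b → faceForm τ R b b' = 0) :
    ∃ φ : X → k, (∀ x, φ (σ (τ x)) = φ x) ∧ b' = faceCycle τ φ := by
  obtain ⟨g, h, hg, hh, hc⟩ := exists_inv_decomp hσ hτ (c := cochainRep τ R b')
    (fun b hb => by rw [sum_mul_cochainRep hτ]; exact hrad b hb)
  have key : ∀ r ∈ R, b' (τ r) = g (τ (τ r)) - g r ∧ b' r = g (τ r) - g (τ (τ r)) := by
    intro r hr
    have n1 := hT.notMem₁ r hr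
    have n2 := hT.notMem₂ r hr
    have c0 := hc r
    have c1 := hc (τ r)
    have c2 := hc (τ (τ r))
    simp only [cochainRep, hτ, hr, n1, n2, if_true, if_false, hh] at c0 c1 c2
    constructor
    · linear_combination c0 - c2
    · linear_combination c2 - c1
  have hb'g : ∀ x, b' x = g (τ x) - g (τ (τ x)) := by
    intro x
    by_cases hx : τ x = x
    · rw [hb'.fix x hx, hx, hx, sub_self]
    · rcases hT.cover x hx with h0 | h1 | h2'
      · exact (key x h0).2
      · obtain ⟨k1, k2⟩ := key (τ x) h1
        simp only [hτ] at k1 k2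
        have := hb'.tau x
        linear_combination this - k1 - k2
      · obtain ⟨k1, -⟩ := key (τ (τ x)) h2'
        simp only [hτ] at k1
        exact k1
  obtain ⟨hinv, hface⟩ := local_solve hτ h2 hg hb'g hb'.sig
  exact ⟨corner τ g, hinv, hface⟩

include hτ in
/-- summing over the honest triangles via a transversal. -/
theorem sum_free_eq {R : Finset X} (hT : IsTransversal τ R) (f : X → k) :
    ∑ x, (if τ x = x then 0 else f x) = ∑ r ∈ R, (f r + f (τ r) + f (τ (τ r))) := by
  have hpt : ∀ x, (if τ x = x then 0 else f x) =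
      (if x ∈ R then f x else 0) + (if τ (τ x) ∈ R then f x else 0)
        + (if τ x ∈ R then f x else 0) := by
    intro x
    by_cases h0 : x ∈ R
    · have n1 := hT.notMem₁ x h0
      have n2 := hT.notMem₂ x h0
      have hx : τ x ≠ x := fun h => n1 (h.symm ▸ h0)
      simp [h0, n1, n2, hx]
    · by_cases h1 : τ x ∈ R
      · have n1 := hT.notMem₁ _ h1
        have hx : τ x ≠ x := fun h => h0 (h ▸ h1)
        simp [h0, h1, n1, hx]
      · by_cases h2 : τ (τ x) ∈ R
        · have hx : τ x ≠ x := fun h => h0 (by rw [h, h] at h2; exact h2)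
          simp [h0, h1, h2, hx]
        · have hx : τ x = x := by
            by_contra hne
            rcases hT.cover x hne with h | h | h
            exacts [h0 h, h1 h, h2 h]
          simp [h0, hx]
  have s1 : ∑ x, (if τ (τ x) ∈ R then f x else 0) = ∑ r ∈ R, f (τ r) := by
    rw [← Fintype.sum_ite_mem R (fun r => f (τ r)),
      ← Equiv.sum_comp τ (fun x => if τ (τ x) ∈ R then f x else 0)]
    simp only [hτ]
  have s2 : ∑ x, (if τ x ∈ R then f x else 0) = ∑ r ∈ R, f (τ (τ r)) := by
    rw [← Fintype.sum_ite_mem R (fun r => f (τ (τ r))),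
      ← Equiv.sum_comp (τ.trans τ) (fun x => if τ x ∈ R then f x else 0)]
    simp only [Equiv.trans_apply, hτ]
  rw [Finset.sum_congr rfl fun x _ => hpt x, Finset.sum_add_distrib, Finset.sum_add_distrib,
    Finset.sum_add_distrib, Finset.sum_add_distrib, Fintype.sum_ite_mem, s1, s2]

include hσ hτ in
/-- **the face cycles lie in the radical of the cup form.** -/
theorem faces_subset_radical (h2 : (2 : k) ≠ 0) {R : Finset X} (hT : IsTransversal τ R)
    {φ : X → k} (hφ : ∀ x, φ (σ (τ x)) = φ x) {b : X → k} (hb : IsCycle σ τ b) :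
    faceForm τ R b (faceCycle τ φ) = 0 := by
  have h1 : ∀ x, φ (σ x) = φ (τ (τ x)) := fun x => by
    have := hφ (τ (τ x))
    rwa [hτ] at this
  have h3 : ∀ x, φ (τ (τ (σ x))) = φ x := fun x => by
    have := hφ (τ (τ (σ x)))
    rw [hτ, hσ] at this
    exact this.symm
  set g : X → k := fun x => φ x + φ (τ (τ x)) with hgdef
  have hg : ∀ x, g (σ x) = g x := fun x => by
    simp only [hgdef, h1, h3]
    ring
  have e1 : faceForm τ R b (faceCycle τ φ)
      = - ∑ r ∈ R, (b r * g r + b (τ r) * g (τ r) + b (τ (τ r)) * g (τ (τ r))) := by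
    rw [faceForm, ← Finset.sum_neg_distrib]
    refine Finset.sum_congr rfl fun r _ => ?_
    have := hb.tau r
    simp only [faceCycle, hgdef, hτ]
    linear_combination (φ (τ r) + φ (τ (τ r))) * this
  have e2 : ∑ r ∈ R, (b r * g r + b (τ r) * g (τ r) + b (τ (τ r)) * g (τ (τ r)))
      = ∑ x, b x * g x := by
    rw [← sum_free_eq hτ hT (fun x => b x * g x)]
    refine Finset.sum_congr rfl fun x _ => ?_
    split_ifs with hx
    · rw [hb.fix x hx, zero_mul]
    · rfl
  have e3 : ∑ x, b x * g x = 0 := by
    have hS : ∑ x, b x * g x = - ∑ x, b x * g x := by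
      conv_lhs => rw [← Equiv.sum_comp σ (fun x => b x * g x)]
      rw [← Finset.sum_neg_distrib]
      refine Finset.sum_congr rfl fun x _ => ?_
      rw [hb.sig, hg]
      ring
    have h2S : (2 : k) * ∑ x, b x * g x = 0 := by linear_combination hS
    exact (mul_eq_zero.mp h2S).resolve_left h2
  rw [e1, e2, e3, neg_zero]

include hσ hτ in
/-- **the radical of the cup form on cycles is exactly the span of the face cycles.** -/
theorem radical_iff_faces (h2 : (2 : k) ≠ 0) {R : Finset X} (hT : IsTransversal τ R)
    {b' : X → k} (hb' : IsCycle σ τ b') :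
    (∀ b : X → k, IsCycle σ τ b → faceForm τ R b b' = 0) ↔
      ∃ φ : X → k, (∀ x, φ (σ (τ x)) = φ x) ∧ b' = faceCycle τ φ := by
  constructor
  · exact radical_subset_faces hσ hτ h2 hT hb'
  · rintro ⟨φ, hφ, rfl⟩ b hb
    exact faces_subset_radical hσ hτ h2 hT hφ hb

include hτ in
/-- on cycles the full sum `Q3` is three times the face-representative form. -/
theorem sum_Q3_eq {R : Finset X} (hT : IsTransversal τ R) {b b' : X → k}
    (hb : IsCycle σ τ b) (hb' : IsCycle σ τ b') :
    ∑ x, (b x * b' (τ x) - b (τ x) * b' x) = 3 * faceForm τ R b b' := by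
  have e : ∑ x, (b x * b' (τ x) - b (τ x) * b' x)
      = ∑ x, if τ x = x then 0 else (b x * b' (τ x) - b (τ x) * b' x) := by
    refine Finset.sum_congr rfl fun x _ => ?_
    split_ifs with hx
    · rw [hx, hb.fix x hx, hb'.fix x hx]
      ring
    · rfl
  rw [e, sum_free_eq hτ hT, faceForm, Finset.mul_sum]
  refine Finset.sum_congr rfl fun r _ => ?_
  have t := hb.tau r
  have t' := hb'.tau r
  simp only [hτ]
  linear_combination (b' r - b' (τ r)) * t + (b (τ r) - b r) * t'

include hτ in
/-- a transversal of the free `τ`-orbits exists. -/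
theorem exists_isTransversal : ∃ R : Finset X, IsTransversal τ R := by
  classical
  let P : Finset X → Prop := fun R => (∀ r ∈ R, τ r ∉ R) ∧ (∀ r ∈ R, τ (τ r) ∉ R)
  have hne : (Finset.univ.filter P).Nonempty := ⟨∅, by simp [P]⟩
  obtain ⟨R, hR, hmax⟩ := Finset.exists_max_image _ Finset.card hne
  rw [Finset.mem_filter] at hR
  obtain ⟨-, hR1, hR2⟩ := hR
  refine ⟨R, ⟨fun x hx => ?_, hR1, hR2⟩⟩
  by_contra hcon
  simp only [not_or] at hcon
  obtain ⟨c0, c1, c2⟩ := hcon
  have hP' : P (insert x R) := by
    constructor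
    · intro r hr
      rw [Finset.mem_insert, not_or]
      rcases Finset.mem_insert.mp hr with rfl | hr
      · exact ⟨hx, c1⟩
      · refine ⟨fun h => c2 ?_, hR1 r hr⟩
        rw [← h, hτ]
        exact hr
    · intro r hr
      rw [Finset.mem_insert, not_or]
      rcases Finset.mem_insert.mp hr with rfl | hr
      · refine ⟨fun h => hx ?_, c2⟩
        have := congrArg τ h
        rw [hτ] at this
        exact this.symm
      · refine ⟨fun h => c1 ?_, hR2 r hr⟩
        rw [← h, hτ]
        exact hr
  have hle := hmax (insert x R) (Finset.mem_filter.mpr ⟨Finset.mem_univ _, hP'⟩)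
  rw [Finset.card_insert_of_notMem c0] at hle
  omega

end FaceForm

end Fermat.Agent.GM.PD.LocalRadical
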