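/-
GATE-M (S41), leaf S41-D1A-FAREY (helper60): the BRIDGE between Manin symbols and parabolic
homomorphisms, for an arbitrary subgroup `Γ ≤ SL(2,ℤ)` and an arbitrary abelian group `A`.

* `IsSymbol Γ a`  : `a : SL(2,ℤ) → A` is left-`Γ`-invariant and satisfies the 2-term and the 3-term
  relation (`U = T S`).
* `IsPotential a F` : `F (g T) = F g`, `F (-g) = F g`, `F g - F (g S) = a g`.
* `perHom` : the period homomorphism `Γ → A`, `γ ↦ F (γ g) - F g` (independent of `g`, `F`);
  it is parabolic in the prelude's sense (`perHom_isParabolic`).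
* `exists_symbol_of_hom` : every parabolic homomorphism is the period homomorphism of a symbol.
* `perHom_eq_zero_iff` : the kernel is the group of boundary symbols `g ↦ u g - u (g S)`, `u` a
  left-`Γ`-invariant function on the Farey vertices.

So `Z¹(Γ; A) / B¹(Γ; A) ≃ parabolicHoms R Γ A`, naturally in `A` and `Γ`.
Imports: Mathlib + the prelude definition of `IsParabolicHom` + FareyPotential.
-/
import Mathlib
import Fermat.Prelude.Def_ModularCurve_PeriodMap
import Fermat.Agent.GM.PD.FareyPotential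

open Matrix Matrix.SpecialLinearGroup ModularGroup ModularCurve.Period
open scoped MatrixGroups

namespace Fermat.Agent.GM.PD.Farey

variable {A : Type*} [AddCommGroup A]

/-- Manin symbols of `Γ` with values in `A`, as functions on `SL(2,ℤ)`
(value on the Farey edge `g{0,∞}`), `U = T S`. -/
structure IsSymbol (Γ : Subgroup SL(2,ℤ)) (a : SL(2,ℤ) → A) : Prop where
  left : ∀ γ ∈ Γ, ∀ g, a (γ * g) = a g
  two : ∀ g, a (g * S) = - a g
  three : ∀ g, a g + a (g * (T * S)) + a (g * (T * S) * (T * S)) = 0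

/-- `F` is a potential of `a` on the Farey vertices. -/
structure IsPotential (a F : SL(2,ℤ) → A) : Prop where
  mul_T : ∀ g, F (g * T) = F g
  neg : ∀ g, F (-g) = F g
  sub : ∀ g, F g - F (g * S) = a g

variable {Γ : Subgroup SL(2,ℤ)} {a F F' : SL(2,ℤ) → A}

theorem IsSymbol.exists_potential (h : IsSymbol Γ a) : ∃ F, IsPotential a F ∧ F 1 = 0 := by
  obtain ⟨F, h1, h2, h3, h4⟩ := exists_potential_TS a h.two h.three
  exact ⟨F, ⟨h1, h2, h3⟩, h4⟩

theorem IsPotential.sub_const (hF : IsPotential a F) (hF' : IsPotential a F') (g : SL(2,ℤ)) :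
    F g - F' g = F 1 - F' 1 :=
  potential_unique a F F' hF.mul_T hF'.mul_T hF.sub hF'.sub g

theorem IsPotential.mul_T_inv (hF : IsPotential a F) (g : SL(2,ℤ)) : F (g * T⁻¹) = F g := by
  have := hF.mul_T (g * T⁻¹)
  rw [inv_mul_cancel_right] at this
  exact this.symm

theorem IsPotential.mul_T_zpow (hF : IsPotential a F) (g : SL(2,ℤ)) (k : ℤ) :
    F (g * T ^ k) = F g := by
  induction k using Int.induction_on with
  | zero => simp
  | succ n ih => rw [_root_.zpow_add_one, ← mul_assoc, hF.mul_T, ih]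
  | pred n ih => rw [_root_.zpow_sub_one, ← mul_assoc, hF.mul_T_inv, ih]

/-- the upper triangular subgroup `{±T^k}` = stabiliser of the Farey vertex `∞`. -/
def upperTri : Subgroup SL(2,ℤ) where
  carrier := {h | h 1 0 = 0}
  one_mem' := by simp
  mul_mem' := by
    intro x y hx hy
    simp only [Set.mem_ofPred_eq] at hx hy ⊢
    simp [coe_mul, Matrix.mul_apply, Fin.sum_univ_two, hx, hy]
  inv_mem' := by
    intro x hx
    simp only [Set.mem_ofPred_eq] at hx ⊢
    simp [coe_inv, Matrix.adjugate_fin_two, hx]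

theorem mem_upperTri {h : SL(2,ℤ)} : h ∈ upperTri ↔ h 1 0 = 0 := Iff.rfl

/-- (copy of `S16_helper61.eq_T_zpow_or_neg`) -/
theorem eq_T_zpow_or_neg_of_mem {g : SL(2,ℤ)} (hc : g ∈ upperTri) :
    ∃ n : ℤ, g = T ^ n ∨ g = -T ^ n := by
  rw [mem_upperTri] at hc
  have hdet := det_eq g
  rw [hc, mul_zero, sub_zero] at hdet
  rcases Int.eq_one_or_neg_one_of_mul_eq_one' hdet with ⟨ha, hd⟩ | ⟨ha, hd⟩
  · refine ⟨g 0 1, Or.inl ?_⟩
    ext i j
    rw [coe_T_zpow]
    fin_cases i <;> fin_cases j <;> simp [ha, hd, hc]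
  · refine ⟨-(g 0 1), Or.inr ?_⟩
    ext i j
    rw [coe_neg, coe_T_zpow]
    fin_cases i <;> fin_cases j <;> simp [ha, hd, hc]

theorem trace_sq_of_mem_upperTri {p : SL(2,ℤ)} (hp : p ∈ upperTri) (r : SL(2,ℤ)) :
    ((r * p * r⁻¹ : SL(2,ℤ)) : Matrix (Fin 2) (Fin 2) ℤ).trace ^ 2 = 4 := by
  have h1 : ((r * p * r⁻¹ : SL(2,ℤ)) : Matrix (Fin 2) (Fin 2) ℤ).trace
      = (p : Matrix (Fin 2) (Fin 2) ℤ).trace := by
    rw [coe_mul, Matrix.trace_mul_comm, ← coe_mul, ← mul_assoc, inv_mul_cancel, one_mul]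
  rw [h1, Matrix.trace_fin_two]
  rw [mem_upperTri] at hp
  have hdet := det_eq p
  rw [hp, mul_zero, sub_zero] at hdet
  rcases Int.eq_one_or_neg_one_of_mul_eq_one' hdet with ⟨ha, hd⟩ | ⟨ha, hd⟩
  · rw [ha, hd]; norm_num
  · rw [ha, hd]; norm_num

theorem IsPotential.mul_upperTri (hF : IsPotential a F) (g : SL(2,ℤ)) {p : SL(2,ℤ)}
    (hp : p ∈ upperTri) : F (g * p) = F g := by
  obtain ⟨n, rfl | rfl⟩ := eq_T_zpow_or_neg_of_mem hp
  · exact hF.mul_T_zpow g n
  · have : g * -T ^ n = -(g * T ^ n) := by simp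
    rw [this, hF.neg, hF.mul_T_zpow]

/-- (copy of `S21_helper65.exists_conj_upper`) An element of `SL(2, ℤ)` whose trace squares to
`4` is conjugate to an upper triangular matrix. -/
theorem exists_conj_mem_upperTri (γ : SL(2, ℤ))
    (htr : (γ : Matrix (Fin 2) (Fin 2) ℤ).trace ^ 2 = 4) :
    ∃ δ : SL(2, ℤ), δ⁻¹ * γ * δ ∈ upperTri := by
  simp only [mem_upperTri]
  set a := (γ : Matrix (Fin 2) (Fin 2) ℤ) 0 0 with ha
  set b := (γ : Matrix (Fin 2) (Fin 2) ℤ) 0 1 with hb
  set c := (γ : Matrix (Fin 2) (Fin 2) ℤ) 1 0 with hc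
  set d := (γ : Matrix (Fin 2) (Fin 2) ℤ) 1 1 with hd
  have hdet : a * d - b * c = 1 := by
    have := γ.det_coe
    rw [Matrix.det_fin_two] at this
    exact this
  have htr' : (a + d) ^ 2 = 4 := by
    rw [Matrix.trace_fin_two] at htr
    exact htr
  obtain ⟨ε, hε, hsum⟩ : ∃ ε : ℤ, ε * ε = 1 ∧ a + d = 2 * ε := by
    have h4 : (a + d - 2) * (a + d + 2) = 0 := by nlinarith
    rcases mul_eq_zero.mp h4 with h | h
    · exact ⟨1, by norm_num, by omega⟩
    · exact ⟨-1, by norm_num, by omega⟩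
  by_cases hc0 : c = 0
  · refine ⟨1, ?_⟩
    simpa using hc0
  · set g : ℤ := (Int.gcd (ε - d) c : ℤ) with hg
    have hg0 : g ≠ 0 := by
      rw [hg]
      exact_mod_cast Int.gcd_ne_zero_right hc0
    have hgx : g ∣ ε - d := Int.gcd_dvd_left _ _
    have hgy : g ∣ c := Int.gcd_dvd_right _ _
    obtain ⟨x, hx⟩ := hgx
    obtain ⟨y, hy⟩ := hgy
    have hcop : IsCoprime x y := by
      have h1 : Int.gcd (ε - d) c = Int.gcd (g * x) (g * y) := by rw [← hx, ← hy]
      rw [Int.gcd_mul_left] at h1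
      have h2 : (Int.gcd (ε - d) c : ℤ) = g := rfl
      have h3 : (g.natAbs : ℤ) * (Int.gcd x y : ℤ) = g := by
        rw [← h2]
        exact_mod_cast h1.symm
      have hgnn : 0 ≤ g := by rw [hg]; positivity
      rw [Int.natAbs_of_nonneg hgnn] at h3
      have h4 : (Int.gcd x y : ℤ) = 1 := by
        have : g * (Int.gcd x y : ℤ) = g * 1 := by rw [h3, mul_one]
        exact mul_left_cancel₀ hg0 this
      exact Int.isCoprime_iff_gcd_eq_one.mpr (by exact_mod_cast h4)
    obtain ⟨u, v, huv⟩ := hcop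
    let δ : SL(2, ℤ) := ⟨!![x, -v; y, u], by
      rw [Matrix.det_fin_two_of]
      linarith⟩
    refine ⟨δ, ?_⟩
    have key : c * x ^ 2 + (d - a) * x * y - b * y ^ 2 = 0 := by
      have h1 : (c * x ^ 2 + (d - a) * x * y - b * y ^ 2) * g ^ 2 = 0 := by
        have e1 : (c * x ^ 2 + (d - a) * x * y - b * y ^ 2) * g ^ 2
            = c * (g * x) ^ 2 + (d - a) * (g * x) * (g * y) - b * (g * y) ^ 2 := by ring
        rw [e1, ← hx, ← hy]
        linear_combination c * hdet - (c * ε) * hsum - c * hε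
      rcases mul_eq_zero.mp h1 with h | h
      · exact h
      · exact absurd ((pow_eq_zero_iff two_ne_zero).mp h) hg0
    have hδ : (δ : Matrix (Fin 2) (Fin 2) ℤ) = !![x, -v; y, u] := rfl
    have hγ : (γ : Matrix (Fin 2) (Fin 2) ℤ) = !![a, b; c, d] := by
      ext i j; fin_cases i <;> fin_cases j <;> rfl
    rw [Matrix.SpecialLinearGroup.coe_mul, Matrix.SpecialLinearGroup.coe_mul,
      Matrix.SpecialLinearGroup.coe_inv, hδ, Matrix.adjugate_fin_two_of, hγ]
    simp only [Matrix.mul_apply, Fin.sum_univ_two, Matrix.of_apply, Matrix.cons_val',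
      Matrix.cons_val_zero, Matrix.cons_val_one, Matrix.empty_val', Matrix.cons_val_fin_one]
    linear_combination key

/-! ### From symbols to parabolic homomorphisms -/

/-- left translation by `γ ∈ Γ` changes a potential by a constant. -/
theorem IsPotential.left_sub (hs : IsSymbol Γ a) (hF : IsPotential a F) {γ : SL(2,ℤ)}
    (hγ : γ ∈ Γ) (g : SL(2,ℤ)) : F (γ * g) - F g = F γ - F 1 := by
  have hF' : IsPotential a (fun g => F (γ * g)) :=
    { mul_T := fun g => by simp only [← mul_assoc, hF.mul_T]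
      neg := fun g => by simp only [mul_neg, hF.neg]
      sub := fun g => by simp only [← mul_assoc, hF.sub, hs.left γ hγ] }
  have := hF'.sub_const hF g
  simpa using this

/-- The period homomorphism of a symbol (computed with a potential `F`). -/
noncomputable def perHom (hs : IsSymbol Γ a) (hF : IsPotential a F) : Additive Γ →+ A where
  toFun γ := F ((Additive.toMul γ : Γ) : SL(2,ℤ)) - F 1
  map_zero' := by simp
  map_add' γ δ := by
    have h := hF.left_sub hs (Additive.toMul γ).2 ((Additive.toMul δ : Γ) : SL(2,ℤ))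
    show F (((Additive.toMul γ : Γ) : SL(2,ℤ)) * ((Additive.toMul δ : Γ) : SL(2,ℤ))) - F 1 = _
    rw [← h]
    abel

theorem perHom_apply (hs : IsSymbol Γ a) (hF : IsPotential a F) (γ : Γ) :
    perHom hs hF (Additive.ofMul γ) = F (γ : SL(2,ℤ)) - F 1 := rfl

theorem perHom_eq (hs : IsSymbol Γ a) (hF : IsPotential a F) (γ : Γ) (g : SL(2,ℤ)) :
    perHom hs hF (Additive.ofMul γ) = F ((γ : SL(2,ℤ)) * g) - F g := by
  rw [perHom_apply, hF.left_sub hs γ.2]

/-- The period homomorphism does not depend on the potential. -/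
theorem perHom_congr (hs : IsSymbol Γ a) (hF : IsPotential a F) (hF' : IsPotential a F') :
    perHom hs hF = perHom hs hF' := by
  refine AddMonoidHom.ext fun γ => ?_
  show F ((Additive.toMul γ : Γ) : SL(2,ℤ)) - F 1 = F' ((Additive.toMul γ : Γ) : SL(2,ℤ)) - F' 1
  have := hF.sub_const hF' ((Additive.toMul γ : Γ) : SL(2,ℤ))
  have e : F ((Additive.toMul γ : Γ) : SL(2,ℤ)) - F 1
      = (F ((Additive.toMul γ : Γ) : SL(2,ℤ)) - F' ((Additive.toMul γ : Γ) : SL(2,ℤ)))
        - (F 1 - F' 1) + (F' ((Additive.toMul γ : Γ) : SL(2,ℤ)) - F' 1) := by abel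
  rw [e, this, sub_self, zero_add]

/-- The period homomorphism is parabolic. -/
theorem perHom_isParabolic (hs : IsSymbol Γ a) (hF : IsPotential a F) :
    IsParabolicHom Γ (perHom hs hF) := by
  intro γ htr
  obtain ⟨δ, hδ⟩ := exists_conj_mem_upperTri (γ : SL(2,ℤ)) htr
  rw [perHom_eq hs hF γ δ]
  have : (γ : SL(2,ℤ)) * δ = δ * (δ⁻¹ * γ * δ) := by group
  rw [this, hF.mul_upperTri δ hδ, sub_self]

/-! ### From parabolic homomorphisms to symbols -/

section Converse

variable (φ : Additive Γ →+ A) (hφ : IsParabolicHom Γ φ)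

/-- the representative of the double coset `Γ g ⟨±T⟩`. -/
noncomputable def cuspRep (Γ : Subgroup SL(2,ℤ)) (g : SL(2,ℤ)) : SL(2,ℤ) :=
  (DoubleCoset.mk Γ upperTri g).out

theorem cuspRep_spec (Γ : Subgroup SL(2,ℤ)) (g : SL(2,ℤ)) :
    ∃ γ ∈ Γ, ∃ p ∈ upperTri, g = γ * cuspRep Γ g * p := by
  obtain ⟨h, k, hh, hk, e⟩ := DoubleCoset.mk_out_eq_mul Γ upperTri g
  refine ⟨h⁻¹, Γ.inv_mem hh, k⁻¹, upperTri.inv_mem hk, ?_⟩
  unfold cuspRep
  rw [e]
  group

theorem cuspRep_mul_left (Γ : Subgroup SL(2,ℤ)) {γ : SL(2,ℤ)} (hγ : γ ∈ Γ) (g : SL(2,ℤ)) :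
    cuspRep Γ (γ * g) = cuspRep Γ g := by
  have : DoubleCoset.mk Γ upperTri (γ * g) = DoubleCoset.mk Γ upperTri g :=
    (DoubleCoset.eq Γ upperTri (γ * g) g).mpr ⟨γ⁻¹, Γ.inv_mem hγ, 1, upperTri.one_mem, by group⟩
  unfold cuspRep
  rw [this]

theorem cuspRep_mul_right (Γ : Subgroup SL(2,ℤ)) (g : SL(2,ℤ)) {p : SL(2,ℤ)}
    (hp : p ∈ upperTri) : cuspRep Γ (g * p) = cuspRep Γ g := by
  have : DoubleCoset.mk Γ upperTri (g * p) = DoubleCoset.mk Γ upperTri g :=
    (DoubleCoset.eq Γ upperTri (g * p) g).mpr ⟨1, Γ.one_mem, p⁻¹, upperTri.inv_mem hp, by group⟩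
  unfold cuspRep
  rw [this]

/-- the potential attached to a parabolic homomorphism. -/
noncomputable def homPot (φ : Additive Γ →+ A) (g : SL(2,ℤ)) : A :=
  φ (Additive.ofMul ⟨(cuspRep_spec Γ g).choose, (cuspRep_spec Γ g).choose_spec.1⟩)

include hφ in
/-- `homPot φ g = φ γ` for EVERY decomposition `g = γ · rep · p`. -/
theorem homPot_eq {g : SL(2,ℤ)} (γ : Γ) {p : SL(2,ℤ)} (hp : p ∈ upperTri)
    (hg : g = (γ : SL(2,ℤ)) * cuspRep Γ g * p) : homPot φ g = φ (Additive.ofMul γ) := by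
  unfold homPot
  obtain ⟨hγ0, p0, hp0, hg0⟩ := (cuspRep_spec Γ g).choose_spec
  set γ0 : Γ := ⟨(cuspRep_spec Γ g).choose, hγ0⟩ with hγ0def
  have hg0' : g = (γ0 : SL(2,ℤ)) * cuspRep Γ g * p0 := hg0
  -- γ⁻¹ γ0 = r (p p0⁻¹) r⁻¹
  have hconj : ((γ⁻¹ * γ0 : Γ) : SL(2,ℤ)) = cuspRep Γ g * (p * p0⁻¹) * (cuspRep Γ g)⁻¹ := by
    have h1 : (γ : SL(2,ℤ)) * cuspRep Γ g * p = (γ0 : SL(2,ℤ)) * cuspRep Γ g * p0 := by
      rw [← hg, ← hg0']
    have h2 : (γ0 : SL(2,ℤ)) = (γ : SL(2,ℤ)) * cuspRep Γ g * p * p0⁻¹ * (cuspRep Γ g)⁻¹ := by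
      rw [h1]; group
    rw [Subgroup.coe_mul, Subgroup.coe_inv, h2]
    group
  have hpar : φ (Additive.ofMul (γ⁻¹ * γ0)) = 0 := by
    apply hφ
    rw [hconj]
    exact trace_sq_of_mem_upperTri (upperTri.mul_mem hp (upperTri.inv_mem hp0)) _
  have : φ (Additive.ofMul γ0) = φ (Additive.ofMul γ) + φ (Additive.ofMul (γ⁻¹ * γ0)) := by
    rw [← map_add]
    congr 1
    show Additive.ofMul γ0 = Additive.ofMul (γ * (γ⁻¹ * γ0))
    rw [mul_inv_cancel_left]
  rw [this, hpar, add_zero]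

include hφ in
theorem homPot_mul_right (g : SL(2,ℤ)) {p : SL(2,ℤ)} (hp : p ∈ upperTri) :
    homPot φ (g * p) = homPot φ g := by
  obtain ⟨γ, hγ, p0, hp0, hg⟩ := cuspRep_spec Γ g
  rw [homPot_eq φ hφ ⟨γ, hγ⟩ hp0 hg]
  refine homPot_eq φ hφ ⟨γ, hγ⟩ (upperTri.mul_mem hp0 hp) ?_
  rw [cuspRep_mul_right Γ g hp]
  conv_lhs => rw [hg]
  simp only [mul_assoc]

include hφ in
theorem homPot_mul_left (γ : Γ) (g : SL(2,ℤ)) :
    homPot φ ((γ : SL(2,ℤ)) * g) = φ (Additive.ofMul γ) + homPot φ g := by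
  obtain ⟨γ1, hγ1, p0, hp0, hg⟩ := cuspRep_spec Γ g
  rw [homPot_eq φ hφ ⟨γ1, hγ1⟩ hp0 hg, ← map_add]
  refine homPot_eq φ hφ (γ * ⟨γ1, hγ1⟩) hp0 ?_
  rw [cuspRep_mul_left Γ γ.2 g]
  conv_lhs => rw [hg]
  simp only [Subgroup.coe_mul, mul_assoc]

theorem T_mem_upperTri : (T : SL(2,ℤ)) ∈ upperTri := by
  rw [mem_upperTri]; simp [coe_T]

theorem neg_one_mem_upperTri : (-1 : SL(2,ℤ)) ∈ upperTri := by
  rw [mem_upperTri]; simp

include hφ in
/-- Every parabolic homomorphism is the period homomorphism of a symbol. -/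
theorem exists_symbol_of_hom :
    ∃ (a F : SL(2,ℤ) → A) (hs : IsSymbol Γ a) (hF : IsPotential a F), perHom hs hF = φ := by
  set F : SL(2,ℤ) → A := homPot φ with hFdef
  have hT : ∀ g, F (g * T) = F g := fun g => homPot_mul_right φ hφ g T_mem_upperTri
  have hTi : ∀ g, F (g * T⁻¹) = F g := fun g =>
    homPot_mul_right φ hφ g (upperTri.inv_mem T_mem_upperTri)
  have hN : ∀ g, F (-g) = F g := fun g => by
    have : -g = g * (-1) := by simp
    rw [this]
    exact homPot_mul_right φ hφ g neg_one_mem_upperTri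
  have hL : ∀ (γ : Γ) g, F ((γ : SL(2,ℤ)) * g) = φ (Additive.ofMul γ) + F g :=
    homPot_mul_left φ hφ
  set a : SL(2,ℤ) → A := fun g => F g - F (g * S) with hadef
  have hF : IsPotential a F := ⟨hT, hN, fun g => rfl⟩
  have hs : IsSymbol Γ a := by
    refine ⟨?_, ?_, ?_⟩
    · intro γ hγ g
      simp only [hadef]
      have h1 := hL ⟨γ, hγ⟩ g
      have h2 := hL ⟨γ, hγ⟩ (g * S)
      simp only [← mul_assoc] at h2
      rw [h1, h2]
      abel
    · intro g
      simp only [hadef]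
      rw [mul_S_mul_S, hN]
      abel
    · intro g
      simp only [hadef]
      have e1 : g * (T * S) * S = -(g * T) := by
        rw [← mul_assoc, mul_S_mul_S]
      have e2 : g * (T * S) * (T * S) = g * S * T⁻¹ := by
        have : g * (T * S) * (T * S) = g * (T * S * T * S) := by simp only [mul_assoc]
        rw [this, TSTS, mul_assoc]
      have e3 : g * (T * S) * (T * S) * S = -(g * (T * S) * T) := by
        have : g * (T * S) * (T * S) * S = g * (T * S) * T * S * S := by simp only [mul_assoc]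
        rw [this, mul_S_mul_S]
      rw [e1, e3, e2, hN, hN, hT, hT, hTi]
      abel
  refine ⟨a, F, hs, hF, ?_⟩
  refine AddMonoidHom.ext fun γ => ?_
  show F ((Additive.toMul γ : Γ) : SL(2,ℤ)) - F 1 = φ γ
  have := hL (Additive.toMul γ) 1
  rw [mul_one] at this
  rw [this]
  have e : Additive.ofMul (Additive.toMul γ) = γ := rfl
  rw [e]
  abel

end Converse

/-! ### The kernel: boundary symbols -/

/-- `a` is a boundary symbol: `a g = u g - u (g S)` for a left-`Γ`-invariant function `u` on the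
Farey vertices. -/
def IsBoundary (Γ : Subgroup SL(2,ℤ)) (a : SL(2,ℤ) → A) : Prop :=
  ∃ u : SL(2,ℤ) → A, (∀ γ ∈ Γ, ∀ g, u (γ * g) = u g) ∧ IsPotential a u

theorem perHom_eq_zero_iff (hs : IsSymbol Γ a) (hF : IsPotential a F) :
    perHom hs hF = 0 ↔ IsBoundary Γ a := by
  constructor
  · intro h
    refine ⟨F, fun γ hγ g => ?_, hF⟩
    have := perHom_eq hs hF ⟨γ, hγ⟩ g
    rw [h] at this
    simp only [AddMonoidHom.zero_apply] at this
    exact (sub_eq_zero.mp this.symm)
  · rintro ⟨u, hu, hpu⟩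
    rw [perHom_congr hs hF hpu]
    refine AddMonoidHom.ext fun γ => ?_
    show u ((Additive.toMul γ : Γ) : SL(2,ℤ)) - u 1 = 0
    have := hu _ (Additive.toMul γ).2 1
    rw [mul_one] at this
    rw [this, sub_self]

/-- A boundary symbol is a symbol. -/
theorem IsBoundary.isSymbol (h : IsBoundary Γ a) : IsSymbol Γ a := by
  obtain ⟨u, hu, hpu⟩ := h
  have hTi := hpu.mul_T_inv
  refine ⟨?_, ?_, ?_⟩
  · intro γ hγ g
    rw [← hpu.sub, ← hpu.sub, mul_assoc, hu γ hγ, hu γ hγ]
  · intro g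
    rw [← hpu.sub, ← hpu.sub, mul_S_mul_S, hpu.neg]
    abel
  · intro g
    have e1 : g * (T * S) * S = -(g * T) := by
      rw [← mul_assoc, mul_S_mul_S]
    have e2 : g * (T * S) * (T * S) = g * S * T⁻¹ := by
      have : g * (T * S) * (T * S) = g * (T * S * T * S) := by simp only [mul_assoc]
      rw [this, TSTS, mul_assoc]
    have e3 : g * (T * S) * (T * S) * S = -(g * (T * S) * T) := by
      have : g * (T * S) * (T * S) * S = g * (T * S) * T * S * S := by simp only [mul_assoc]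
      rw [this, mul_S_mul_S]
    rw [← hpu.sub, ← hpu.sub, ← hpu.sub, e1, e3, e2, hpu.neg, hpu.neg, hpu.mul_T, hpu.mul_T, hTi]
    abel

/-! ### Linear packaging: `symbols / boundary symbols ≃ parabolicHoms` -/

section Linear

theorem pot_add (a a' : SL(2,ℤ) → A) (g : SL(2,ℤ)) : pot (a + a') g = pot a g + pot a' g := by
  induction hn : (g 1 0).natAbs using Nat.strong_induction_on generalizing g with
  | _ n ih =>
    by_cases h : g 1 0 = 0
    · rw [pot_of_eq_zero _ h, pot_of_eq_zero _ h, pot_of_eq_zero _ h, add_zero]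
    · rw [pot_of_ne_zero _ h, pot_of_ne_zero a h, pot_of_ne_zero a' h]
      have := ih _ (by rw [← hn, step_10]; exact natAbs_fmod_lt _ _ h) (g * T ^ kap g * S) rfl
      rw [this, Pi.add_apply]
      abel

theorem pot_smul {R : Type*} [Semiring R] [Module R A] (c : R) (a : SL(2,ℤ) → A)
    (g : SL(2,ℤ)) : pot (c • a) g = c • pot a g := by
  induction hn : (g 1 0).natAbs using Nat.strong_induction_on generalizing g with
  | _ n ih =>
    by_cases h : g 1 0 = 0
    · rw [pot_of_eq_zero _ h, pot_of_eq_zero _ h, smul_zero]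
    · rw [pot_of_ne_zero _ h, pot_of_ne_zero a h]
      have := ih _ (by rw [← hn, step_10]; exact natAbs_fmod_lt _ _ h) (g * T ^ kap g * S) rfl
      rw [this, Pi.smul_apply, smul_add]

theorem isPotential_pot (hs : IsSymbol Γ a) : IsPotential a (pot a) :=
  ⟨pot_mul_T a, pot_neg a (a_neg a hs.two), pot_sub_TS a hs.two hs.three⟩

end Linear

section Linear2

variable (R : Type*) [Semiring R] (G : Subgroup SL(2,ℤ)) (B : Type*) [AddCommGroup B] [Module R B]

/-- The module of Manin symbols of `G` with values in `B`. -/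
def symbols : Submodule R (SL(2,ℤ) → B) where
  carrier := {a | IsSymbol G a}
  zero_mem' := ⟨fun _ _ _ => rfl, fun _ => by simp, fun _ => by simp⟩
  add_mem' := by
    intro a b ha hb
    refine ⟨fun γ hγ g => ?_, fun g => ?_, fun g => ?_⟩
    · simp only [Pi.add_apply, ha.left γ hγ, hb.left γ hγ]
    · simp only [Pi.add_apply, ha.two, hb.two]; abel
    · have h1 := ha.three g
      have h2 := hb.three g
      simp only [Pi.add_apply]
      have : a g + b g + (a (g * (T * S)) + b (g * (T * S)))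
          + (a (g * (T * S) * (T * S)) + b (g * (T * S) * (T * S)))
          = (a g + a (g * (T * S)) + a (g * (T * S) * (T * S)))
            + (b g + b (g * (T * S)) + b (g * (T * S) * (T * S))) := by abel
      rw [this, h1, h2, add_zero]
  smul_mem' := by
    intro c a ha
    refine ⟨fun γ hγ g => ?_, fun g => ?_, fun g => ?_⟩
    · simp only [Pi.smul_apply, ha.left γ hγ]
    · simp only [Pi.smul_apply, ha.two, smul_neg]
    · simp only [Pi.smul_apply]
      rw [← smul_add, ← smul_add, ha.three, smul_zero]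

variable {R G B}

theorem mem_symbols {a : SL(2,ℤ) → B} : a ∈ symbols R G B ↔ IsSymbol G a := Iff.rfl

theorem isSymbol_coe (a : symbols R G B) : IsSymbol G (a : SL(2,ℤ) → B) := a.2

variable (R G B)

/-- The period map from Manin symbols to parabolic homomorphisms. -/
noncomputable def symbolHom : symbols R G B →ₗ[R] parabolicHoms R G B where
  toFun a := ⟨perHom (isSymbol_coe a) (isPotential_pot (isSymbol_coe a)),
    perHom_isParabolic (isSymbol_coe a) (isPotential_pot (isSymbol_coe a))⟩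
  map_add' a b := by
    apply Subtype.ext
    refine AddMonoidHom.ext fun γ => ?_
    show pot (a.1 + b.1) ((Additive.toMul γ : G) : SL(2,ℤ)) - pot (a.1 + b.1) 1
      = (pot a.1 ((Additive.toMul γ : G) : SL(2,ℤ)) - pot a.1 1)
        + (pot b.1 ((Additive.toMul γ : G) : SL(2,ℤ)) - pot b.1 1)
    rw [pot_add, pot_add]
    abel
  map_smul' c a := by
    apply Subtype.ext
    refine AddMonoidHom.ext fun γ => ?_
    show pot (c • a.1) ((Additive.toMul γ : G) : SL(2,ℤ)) - pot (c • a.1) 1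
      = c • (pot a.1 ((Additive.toMul γ : G) : SL(2,ℤ)) - pot a.1 1)
    rw [pot_smul, pot_smul, smul_sub]

variable {R G B}

theorem symbolHom_apply (a : symbols R G B) (γ : G) (g : SL(2,ℤ)) :
    (symbolHom R G B a : Additive G →+ B) (Additive.ofMul γ)
      = pot a.1 ((γ : SL(2,ℤ)) * g) - pot a.1 g :=
  perHom_eq (isSymbol_coe a) (isPotential_pot (isSymbol_coe a)) γ g

/-- with ANY potential. -/
theorem symbolHom_apply' (a : symbols R G B) {F : SL(2,ℤ) → B} (hF : IsPotential a.1 F) (γ : G)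
    (g : SL(2,ℤ)) :
    (symbolHom R G B a : Additive G →+ B) (Additive.ofMul γ) = F ((γ : SL(2,ℤ)) * g) - F g := by
  show perHom (isSymbol_coe a) (isPotential_pot (isSymbol_coe a)) (Additive.ofMul γ) = _
  rw [perHom_congr (isSymbol_coe a) (isPotential_pot (isSymbol_coe a)) hF, perHom_eq]

theorem symbolHom_surjective : Function.Surjective (symbolHom R G B) := by
  rintro ⟨φ, hφ⟩
  obtain ⟨a, F, hs, hF, h⟩ := exists_symbol_of_hom φ hφ
  refine ⟨⟨a, hs⟩, Subtype.ext ?_⟩
  show perHom hs (isPotential_pot hs) = φ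
  rw [perHom_congr hs (isPotential_pot hs) hF, h]

theorem symbolHom_eq_zero_iff (a : symbols R G B) : symbolHom R G B a = 0 ↔ IsBoundary G a.1 := by
  rw [← perHom_eq_zero_iff (isSymbol_coe a) (isPotential_pot (isSymbol_coe a))]
  constructor
  · intro h
    exact congrArg Subtype.val h
  · intro h
    exact Subtype.ext h

end Linear2

/-- **Manin's presentation**: symbols modulo boundary symbols = parabolic homomorphisms. -/
noncomputable def symbolEquiv (R : Type*) [Ring R] (G : Subgroup SL(2,ℤ)) (B : Type*)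
    [AddCommGroup B] [Module R B] :
    (symbols R G B ⧸ LinearMap.ker (symbolHom R G B)) ≃ₗ[R] parabolicHoms R G B :=
  (symbolHom R G B).quotKerEquivOfSurjective symbolHom_surjective

theorem symbolEquiv_mk (R : Type*) [Ring R] (G : Subgroup SL(2,ℤ)) (B : Type*)
    [AddCommGroup B] [Module R B] (a : symbols R G B) :
    symbolEquiv R G B (Submodule.Quotient.mk a) = symbolHom R G B a := rfl


end Fermat.Agent.GM.PD.Farey
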